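import Fermat.Agent.Igusa.JFactor
import Fermat.Agent.Deuring.Basic

/-!
# Deuring reduction data for the modular function fields
-/

set_option autoImplicit false

noncomputable section

open HahnSeries ModularCurve Module Polynomial

namespace Fermat.Agent.Igusa

attribute [local instance 2000] lsModule lsSMul

theorem ResLocal.inv_mem {F : Type*} [Field F] {O : ValuationSubring F} {k : Type*} [Field k]
    {res : O →+* k} (h : ResLocal O res) {x : O} (hx : res x ≠ 0) :
    ∃ hi : (x : F)⁻¹ ∈ O, res ⟨(x : F)⁻¹, hi⟩ = (res x)⁻¹ := by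
  have h1 : ¬ ((x : F) = 0 ∨ (x : F)⁻¹ ∉ O) := fun h2 => hx ((h x).mpr h2)
  push Not at h1
  refine ⟨h1.2, eq_inv_of_mul_eq_one_left ?_⟩
  rw [← map_mul, ← map_one res]
  exact congrArg res (Subtype.ext (inv_mul_cancel₀ h1.1))

variable {L : Type*} [Field L] (A : ValuationSubring L) {κ : Type*} [Field κ] (π : A →+* κ)

section Image

variable {F : IntermediateField L (LaurentSeries L)} (hF : IsTameField F)

/-- The residue field of the Gauss valuation, as an intermediate field. -/
def gaussImage (hπ : Function.Surjective π) : IntermediateField κ (LaurentSeries κ) where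
  carrier := Set.range (gaussValRes A π hF)
  mul_mem' := by
    rintro _ _ ⟨x, rfl⟩ ⟨y, rfl⟩
    exact ⟨x * y, map_mul _ _ _⟩
  one_mem' := ⟨1, map_one _⟩
  add_mem' := by
    rintro _ _ ⟨x, rfl⟩ ⟨y, rfl⟩
    exact ⟨x + y, map_add _ _ _⟩
  zero_mem' := ⟨0, map_zero _⟩
  algebraMap_mem' := by
    intro c
    obtain ⟨a, rfl⟩ := hπ c
    refine ⟨⟨algebraMap L F a, ?_⟩, ?_⟩
    · rw [mem_gaussVal_iff]
      exact algebraMap_mem_gaussRing A π a
    · rw [gaussValRes_apply]
      exact gaussRes_algebraMap A π a rfl
  inv_mem' := by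
    rintro _ ⟨x, rfl⟩
    by_cases hx : gaussValRes A π hF x = 0
    · rw [hx, inv_zero]; exact ⟨0, map_zero _⟩
    · obtain ⟨h1, h2⟩ := (resLocal_gaussVal A π hF).inv_mem hx
      exact ⟨_, h2⟩

theorem mem_gaussImage_iff (hπ : Function.Surjective π) {y : LaurentSeries κ} :
    y ∈ gaussImage A π hF hπ ↔ ∃ x, gaussValRes A π hF x = y := Iff.rfl

end Image

theorem full_le_gaussImage (hπ : Function.Surjective π) (N : ℕ) :
    modularFunctionFieldFullC κ N ≤ gaussImage A π (isTameField_full (L := L) N) hπ := by
  rw [modularFunctionFieldFullC, IntermediateField.adjoin_le_iff]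
  rintro _ ⟨d, hd, hdN, rfl⟩
  have h1 : coeffMap A.subtype (qExpand A d (jqModC A)) = qExpand L d (jqModC L) := by
    rw [coeffMap_qExpand, coeffMap_jqModC]
  have h2 : coeffMap π (qExpand A d (jqModC A)) = qExpand κ d (jqModC κ) := by
    rw [coeffMap_qExpand, coeffMap_jqModC]
  refine ⟨⟨⟨qExpand L d (jqModC L), jqModCd_mem_full L N hdN⟩, ?_⟩, ?_⟩
  · rw [mem_gaussVal_iff]
    have h3 : qExpand L d (jqModC L) ∈ gaussRing A π := by
      rw [← h1]
      exact emb_mem_gaussRing _
    exact h3
  · rw [gaussValRes_apply, ← h2]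
    exact (gaussRes_congr h1.symm).trans (gaussRes_emb _)

variable (N : ℕ) [IsLocalHom π] (hπ : Function.Surjective π)
  {d : ℕ} (hpos : 0 < d)
  (hd : IntermediateField.relfinrank (IntermediateField.adjoin L {jqModC L})
    (modularFunctionFieldFullC L N) = d)
  (hd₁ : IntermediateField.relfinrank (IntermediateField.adjoin κ {jqModC κ})
    (modularFunctionFieldFullC κ N) = d)

theorem adjoin_j_le_full (K : Type*) [Field K] (N : ℕ) :
    IntermediateField.adjoin K {jqModC K} ≤ modularFunctionFieldFullC K N := by
  rw [IntermediateField.adjoin_le_iff, Set.singleton_subset_iff]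
  exact jqModC_mem_full K N

include hπ hpos hd hd₁ in
theorem gaussValRes_mem_full (x : gaussVal A π (isTameField_full (L := L) N)) :
    gaussValRes A π (isTameField_full (L := L) N) x ∈ modularFunctionFieldFullC κ N := by
  refine gaussValRes_mem A π (isTameField_full N) _ (IntermediateField.adjoin L {jqModC L})
    (IntermediateField.adjoin κ {jqModC κ}) ?_ ?_ (adjoin_j_le_full κ N) hd₁ hpos hd x
  · intro x hx
    exact gaussRes_mem_adjoin_j A π hx
  · intro y hy
    exact full_le_gaussImage A π hπ N hy

/-- the residue map with values in the function field over `κ`. -/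
def fullRes : gaussVal A π (isTameField_full (L := L) N) →+* modularFunctionFieldFullC κ N :=
  RingHom.codRestrict (gaussValRes A π (isTameField_full N)) (modularFunctionFieldFullC κ N)
    (gaussValRes_mem_full A π N hπ hpos hd hd₁)

@[simp] theorem coe_fullRes (x : gaussVal A π (isTameField_full (L := L) N)) :
    (fullRes A π N hπ hpos hd hd₁ x : LaurentSeries κ) = gaussValRes A π (isTameField_full N) x :=
  rfl

theorem fullRes_surjective : Function.Surjective (fullRes A π N hπ hpos hd hd₁) := by
  intro y
  obtain ⟨x, hx⟩ := full_le_gaussImage A π hπ N y.2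
  exact ⟨x, Subtype.ext hx⟩

theorem isUnit_iff_valSub {K : Type*} [Field K] (O : ValuationSubring K) (x : O) :
    ¬ IsUnit x ↔ (x : K) = 0 ∨ (x : K)⁻¹ ∉ O := by
  rw [not_iff_comm, not_or, not_not]
  constructor
  · rintro ⟨h0, h1⟩
    exact IsUnit.of_mul_eq_one ⟨_, h1⟩ (Subtype.ext (mul_inv_cancel₀ h0))
  · intro hu
    obtain ⟨y, hy⟩ := isUnit_iff_exists_inv.mp hu
    have hy' : (x : K) * y = 1 := congrArg Subtype.val hy
    refine ⟨left_ne_zero_of_mul_eq_one hy', ?_⟩
    rw [inv_eq_of_mul_eq_one_right hy']
    exact y.2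

/-- **Deuring reduction data for the modular function fields.** -/
def fullData : Deuring.Data L κ (modularFunctionFieldFullC L N) (modularFunctionFieldFullC κ N) where
  A := A
  O := gaussVal A π (isTameField_full N)
  π := π
  res := fullRes A π N hπ hpos hd hd₁
  mem_iff a := ⟨fun h => mem_of_algebraMap_mem_gaussRing (π := π) h,
    fun h => algebraMap_mem_gaussRing A π ⟨a, h⟩⟩
  π_surj := hπ
  π_ker a := by
    constructor
    · intro h hu
      have := hu.map π
      rw [h] at this
      exact not_isUnit_zero this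
    · intro h
      by_contra hcon
      exact h (isUnit_of_map_unit π a (isUnit_iff_ne_zero.mpr hcon))
  res_surj := fullRes_surjective A π N hπ hpos hd hd₁
  res_ker f := by
    rw [isUnit_iff_valSub, ← resLocal_gaussVal A π (isTameField_full N) f]
    exact ⟨fun h => congrArg Subtype.val h, fun h => Subtype.ext h⟩
  res_algebraMap a := Subtype.ext (gaussRes_algebraMap A π a rfl)
  lat V hV := by
    obtain ⟨b, hb, hli⟩ := exists_orthonormal A π (isTameField_full N) V
    refine ⟨b, hb, ?_⟩
    exact LinearIndependent.of_comp (modularFunctionFieldFullC κ N).val.toLinearMap hli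

@[simp] theorem fullData_A : (fullData A π N hπ hpos hd hd₁).A = A := rfl

@[simp] theorem fullData_O : (fullData A π N hπ hpos hd hd₁).O = gaussVal A π (isTameField_full N) :=
  rfl

/-- residue of an element with integral `q`-expansion -/
theorem fullData_res_of_integral {x : modularFunctionFieldFullC L N} {P : LaurentSeries A}
    (hx : (x : LaurentSeries L) = coeffMap A.subtype P) :
    ∃ h : x ∈ (fullData A π N hπ hpos hd hd₁).O,
      (((fullData A π N hπ hpos hd hd₁).res ⟨x, h⟩ : modularFunctionFieldFullC κ N) :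
        LaurentSeries κ) = coeffMap π P := by
  have h1 : x ∈ gaussVal A π (isTameField_full N) := by
    rw [mem_gaussVal_iff, hx]
    exact emb_mem_gaussRing P
  exact ⟨h1, (gaussRes_congr hx).trans (gaussRes_emb P)⟩

end Fermat.Agent.Igusa
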