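import Fermat.Agent.Igusa.DeuringData
import Fermat.Prelude.Def_ModularCurve_ArithmeticGalois

/-!
# The modular function field over `L ⊇ ℚ` as a base change; transport of the Deuring data
-/

set_option autoImplicit false

noncomputable section

open HahnSeries ModularCurve Module Polynomial

namespace Fermat.Agent.Igusa

theorem laurentBaseChange_full (L : Type*) [Field L] [Algebra ℚ L] (N : ℕ) :
    laurentBaseChange L (modularFunctionFieldFull N) = modularFunctionFieldFullC L N := by
  apply le_antisymm
  · rw [laurentBaseChange, IntermediateField.adjoin_le_iff]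
    rintro _ ⟨x, hx, rfl⟩
    show coeffEmb L x ∈ modularFunctionFieldFullC L N
    have hx' : x ∈ IntermediateField.adjoin ℚ (divisorExpansionsC ℚ N) := hx
    clear hx
    induction hx' using IntermediateField.adjoin_induction with
    | mem y hy =>
      obtain ⟨d, hd, hdN, rfl⟩ := hy
      rw [coeffEmb, coeffMap_qExpand, coeffMap_jqModC]
      exact jqModCd_mem_full L N hdN
    | algebraMap y =>
      have : coeffEmb L (algebraMap ℚ (LaurentSeries ℚ) y)
          = algebraMap L (LaurentSeries L) (algebraMap ℚ L y) := by
        rw [algebraMap_laurentSeries_eq_single, algebraMap_laurentSeries_eq_single, coeffEmb,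
          coeffMap_single]
      rw [this]
      exact IntermediateField.algebraMap_mem _ _
    | add x y hx hy ihx ihy => rw [map_add]; exact add_mem ihx ihy
    | inv x hx ih => rw [map_inv₀]; exact inv_mem ih
    | mul x y hx hy ihx ihy => rw [map_mul]; exact mul_mem ihx ihy
  · rw [modularFunctionFieldFullC, IntermediateField.adjoin_le_iff]
    rintro _ ⟨d, hd, hdN, rfl⟩
    have : qExpand L d (jqModC L) = coeffEmb L (qExpand ℚ d (jqModC ℚ)) := by
      rw [coeffEmb, coeffMap_qExpand, coeffMap_jqModC]
    rw [this]
    exact coeffEmb_mem_laurentBaseChange L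
      (by rw [← modularFunctionFieldFullC_rat]; exact jqModCd_mem_full ℚ N hdN)

theorem modularFunctionFieldBar_eq (N : ℕ) [NeZero N] :
    modularFunctionFieldBar N = modularFunctionFieldFullC (AlgebraicClosure ℚ) N :=
  laurentBaseChange_full _ N

section Transport

variable {L : Type*} [Field L] (A : ValuationSubring L) {κ : Type*} [Field κ] (π : A →+* κ)
variable (N : ℕ) [IsLocalHom π] (hπ : Function.Surjective π)
  {d : ℕ} (hpos : 0 < d)
  (hd : IntermediateField.relfinrank (IntermediateField.adjoin L {jqModC L})
    (modularFunctionFieldFullC L N) = d)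
  (hd₁ : IntermediateField.relfinrank (IntermediateField.adjoin κ {jqModC κ})
    (modularFunctionFieldFullC κ N) = d)
  {F : IntermediateField L (LaurentSeries L)} (hF : F = modularFunctionFieldFullC L N)

/-- Deuring reduction data, for a field `F` equal to `modularFunctionFieldFullC L N`. -/
def fullDataOf : Deuring.Data L κ F (modularFunctionFieldFullC κ N) := by
  subst hF
  exact fullData A π N hπ hpos hd hd₁

theorem fullDataOf_A : (fullDataOf A π N hπ hpos hd hd₁ hF).A = A := by
  subst hF; rfl

theorem mem_fullDataOf_O {x : F} : x ∈ (fullDataOf A π N hπ hpos hd hd₁ hF).O ↔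
    (x : LaurentSeries L) ∈ gaussRing A π := by
  subst hF; rfl

theorem fullDataOf_res (x : (fullDataOf A π N hπ hpos hd hd₁ hF).O) :
    (((fullDataOf A π N hπ hpos hd hd₁ hF).res x : modularFunctionFieldFullC κ N) :
      LaurentSeries κ) = gaussRes A π
        ⟨((x : F) : LaurentSeries L), (mem_fullDataOf_O A π N hπ hpos hd hd₁ hF).mp x.2⟩ := by
  subst hF; rfl

end Transport

end Fermat.Agent.Igusa
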