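import Mathlib

/-!
# Residually independent families over a valuation ring
-/

set_option autoImplicit false

noncomputable section

namespace Fermat.Agent.Igusa

variable {F : Type*} [Field F] (O : ValuationSubring F) {k : Type*} [Field k] (res : O →+* k)

/-- `res` has kernel the maximal ideal: elements with zero residue are non units. -/
def ResLocal : Prop := ∀ x : O, res x = 0 ↔ (x : F) = 0 ∨ (x : F)⁻¹ ∉ O

variable {O res}

theorem ResLocal.res_div_eq_zero (h : ResLocal O res) {x c : F} (hx : x ∈ O) (hc : c ∉ O) :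
    ∃ hxc : x / c ∈ O, res ⟨x / c, hxc⟩ = 0 := by
  have hc0 : c ≠ 0 := fun h0 => hc (h0 ▸ O.zero_mem)
  have hci : c⁻¹ ∈ O := (O.mem_or_inv_mem c).resolve_left hc
  have hxc : x / c ∈ O := by rw [div_eq_mul_inv]; exact O.mul_mem _ _ hx hci
  refine ⟨hxc, ?_⟩
  have h1 : res ⟨c⁻¹, hci⟩ = 0 := (h _).mpr (Or.inr (by simpa using hc))
  have h2 : (⟨x / c, hxc⟩ : O) = ⟨x, hx⟩ * ⟨c⁻¹, hci⟩ := Subtype.ext (div_eq_mul_inv x c)
  rw [h2, map_mul, h1, mul_zero]

variable (O res) in
/-- A family in `O` whose residues are linearly independent over the residues of a subfield. -/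
def ResIndep (F₀ : Subfield F) {ι : Type*} [Fintype ι] (b : ι → O) : Prop :=
  ∀ a : ι → O, (∀ i, (a i : F) ∈ F₀) → ∑ i, res (a i) * res (b i) = 0 → ∀ i, res (a i) = 0

variable {F₀ : Subfield F} {ι : Type*} [Fintype ι] {b : ι → O}

/-- coefficients of maximal valuation -/
theorem exists_dividing (O : ValuationSubring F) {ι : Type*} [Fintype ι] (c : ι → F)
    (hc : ∃ i, c i ≠ 0) : ∃ i₀, c i₀ ≠ 0 ∧ ∀ i, c i / c i₀ ∈ O := by
  classical
  obtain ⟨i, hi⟩ := hc
  obtain ⟨i₀, -, h⟩ := Finset.exists_max_image (Finset.univ : Finset ι)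
    (fun i => O.valuation (c i)) ⟨i, Finset.mem_univ i⟩
  have h0 : c i₀ ≠ 0 := by
    intro h0
    have := h i (Finset.mem_univ i)
    rw [h0, map_zero, le_zero_iff, Valuation.zero_iff] at this
    exact hi this
  refine ⟨i₀, h0, fun j => ?_⟩
  rw [← O.valuation_le_one_iff, map_div₀]
  exact div_le_one_of_le₀ (h j (Finset.mem_univ j)) zero_le

theorem ResIndep.mem_of_sum_mem (hres : ResLocal O res) (hb : ResIndep O res F₀ b)
    {c : ι → F} (hc : ∀ i, c i ∈ F₀) (hsum : ∑ i, c i * (b i : F) ∈ O) : ∀ i, c i ∈ O := by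
  classical
  by_contra hcon
  push Not at hcon
  obtain ⟨i₁, hi₁⟩ := hcon
  obtain ⟨i₀, hi₀, hdiv⟩ := exists_dividing O c ⟨i₁, fun h => hi₁ (h ▸ O.zero_mem)⟩
  have hi₀O : c i₀ ∉ O := by
    intro h
    apply hi₁
    have := O.mul_mem _ _ (hdiv i₁) h
    rwa [div_mul_cancel₀ _ hi₀] at this
  obtain ⟨hmem, hzero⟩ := hres.res_div_eq_zero hsum hi₀O
  have h := hb (fun i => ⟨c i / c i₀, hdiv i⟩) (fun i => F₀.div_mem (hc i) (hc i₀)) (by
    rw [← hzero]
    simp_rw [← map_mul]
    rw [← map_sum]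
    congr 1
    apply Subtype.ext
    have e : (∑ i, c i * (b i : F)) / c i₀ = ∑ i, c i / c i₀ * (b i : F) := by
      rw [Finset.sum_div]
      exact Finset.sum_congr rfl fun i _ => by ring
    simp only [AddSubmonoidClass.coe_finsetSum, MulMemClass.coe_mul]
    exact e.symm) i₀
  have h1 : (⟨c i₀ / c i₀, hdiv i₀⟩ : O) = 1 := Subtype.ext (div_self hi₀)
  rw [h1, map_one] at h
  exact one_ne_zero h

theorem ResIndep.eq_zero_of_sum_eq_zero (hb : ResIndep O res F₀ b)
    {c : ι → F} (hc : ∀ i, c i ∈ F₀) (hsum : ∑ i, c i * (b i : F) = 0) : ∀ i, c i = 0 := by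
  classical
  by_contra hcon
  push Not at hcon
  obtain ⟨i₀, hi₀, hdiv⟩ := exists_dividing O c hcon
  have h := hb (fun i => ⟨c i / c i₀, hdiv i⟩) (fun i => F₀.div_mem (hc i) (hc i₀)) (by
    rw [← map_zero res]
    simp_rw [← map_mul]
    rw [← map_sum]
    congr 1
    apply Subtype.ext
    simp only [AddSubmonoidClass.coe_finsetSum, MulMemClass.coe_mul, ZeroMemClass.coe_zero]
    have : ∑ i, c i / c i₀ * (b i : F) = (∑ i, c i * (b i : F)) / c i₀ := by
      rw [Finset.sum_div]
      exact Finset.sum_congr rfl fun i _ => by ring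
    rw [this, hsum, zero_div]) i₀
  have h1 : (⟨c i₀ / c i₀, hdiv i₀⟩ : O) = 1 := Subtype.ext (div_self hi₀)
  rw [h1, map_one] at h
  exact one_ne_zero h

theorem ResIndep.linearIndependent (hb : ResIndep O res F₀ b) :
    LinearIndependent F₀ (fun i => (b i : F)) := by
  rw [Fintype.linearIndependent_iff]
  intro g hg i
  have := hb.eq_zero_of_sum_eq_zero (c := fun i => (g i : F)) (fun i => (g i).2)
    (by simpa [Subfield.smul_def] using hg) i
  exact Subtype.ext this

/-- If `[F : F₀] = card ι` and `b` is a residually independent family, every `x ∈ O` is a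
combination of the `b i` with coefficients in `O ∩ F₀`. -/
theorem ResIndep.exists_coords (hres : ResLocal O res) (hb : ResIndep O res F₀ b)
    [FiniteDimensional F₀ F]
    (hcard : Fintype.card ι = Module.finrank F₀ F) {x : F} (hx : x ∈ O) :
    ∃ c : ι → F, (∀ i, c i ∈ F₀) ∧ (∀ i, c i ∈ O) ∧ x = ∑ i, c i * (b i : F) := by
  have hli := hb.linearIndependent
  have hspan := hli.span_eq_top_of_card_eq_finrank' hcard
  have hxs : x ∈ Submodule.span F₀ (Set.range fun i => (b i : F)) := hspan ▸ Submodule.mem_top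
  obtain ⟨g, hg⟩ := (Submodule.mem_span_range_iff_exists_fun F₀).mp hxs
  have hg' : x = ∑ i, (g i : F) * (b i : F) := by
    rw [← hg]
    exact Finset.sum_congr rfl fun i _ => by rw [Subfield.smul_def, smul_eq_mul]
  refine ⟨fun i => (g i : F), fun i => (g i).2, ?_, hg'⟩
  exact hb.mem_of_sum_mem hres (fun i => (g i).2) (hg' ▸ hx)

/-- `O` is integral over `O ∩ F₀`. -/
theorem ResIndep.isIntegral (hres : ResLocal O res) (hb : ResIndep O res F₀ b)
    [FiniteDimensional F₀ F]
    (hcard : Fintype.card ι = Module.finrank F₀ F) {x : F} (hx : x ∈ O) :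
    IsIntegral (O.toSubring ⊓ F₀.toSubring : Subring F) x := by
  classical
  set S : Subring F := O.toSubring ⊓ F₀.toSubring with hS
  set N : Submodule S F := Submodule.span S (Set.range fun i => (b i : F)) with hN
  have hmem : ∀ y : F, y ∈ O → y ∈ N := by
    intro y hy
    obtain ⟨c, hc0, hcO, rfl⟩ := hb.exists_coords hres hcard hy
    refine Submodule.sum_mem _ fun i _ => ?_
    have : c i * (b i : F) = (⟨c i, hcO i, hc0 i⟩ : S) • (b i : F) := rfl
    rw [this]
    exact Submodule.smul_mem _ _ (Submodule.subset_span ⟨i, rfl⟩)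
  have hNO : ∀ y : F, y ∈ N → y ∈ O := by
    intro y hy
    refine Submodule.span_induction (p := fun z _ => z ∈ O) ?_ ?_ ?_ ?_ hy
    · rintro _ ⟨i, rfl⟩; exact (b i).2
    · exact O.zero_mem
    · intro y z _ _ hy hz; exact O.add_mem _ _ hy hz
    · intro a y _ hy; exact O.mul_mem _ _ a.2.1 hy
  refine isIntegral_of_smul_mem_submodule (M := F) N ?_ ?_ x ?_
  · intro h0
    have h1 : (1 : F) ∈ N := hmem 1 O.one_mem
    rw [h0, Submodule.mem_bot] at h1
    exact one_ne_zero h1
  · exact Submodule.fg_span (Set.finite_range _)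
  · intro n hn
    exact hmem _ (O.mul_mem _ _ hx (hNO n hn))

end Fermat.Agent.Igusa
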