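import Fermat.Agent.Igusa.Gauss
import Fermat.Agent.Igusa.ValRing

/-!
# The Gauss valuation ring of a tame field of Laurent series
-/

set_option autoImplicit false

noncomputable section

open HahnSeries ModularCurve

namespace Fermat.Agent.Igusa

variable {L : Type*} [Field L] (A : ValuationSubring L) {κ : Type*} [Field κ] (π : A →+* κ)

/-- Every element of `F` is a quotient of tame series. -/
def IsTameField (F : IntermediateField L (LaurentSeries L)) : Prop :=
  ∀ x ∈ F, ∃ P ∈ tame L, ∃ Q ∈ tame L, Q ≠ 0 ∧ x * Q = P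

theorem isTameField_adjoin {S : Set (LaurentSeries L)} (hS : S ⊆ tame L) :
    IsTameField (IntermediateField.adjoin L S) := by
  intro x hx
  rw [IntermediateField.mem_adjoin_iff_div] at hx
  obtain ⟨r, hr, s, hs, rfl⟩ := hx
  have hle : Algebra.adjoin L S ≤ tame L := Algebra.adjoin_le hS
  by_cases hs0 : s = 0
  · subst hs0
    exact ⟨0, zero_mem _, 1, one_mem _, one_ne_zero, by rw [div_zero, zero_mul]⟩
  · exact ⟨r, hle hr, s, hle hs, hs0, div_mul_cancel₀ r hs0⟩

theorem divisorExpansionsC_subset_tame (N : ℕ) :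
    divisorExpansionsC L N ⊆ (tame L : Set (LaurentSeries L)) := by
  rintro _ ⟨d, hd, -, rfl⟩
  exact qExpand_jqModC_mem_tame d

theorem isTameField_full (N : ℕ) : IsTameField (modularFunctionFieldFullC L N) :=
  isTameField_adjoin (divisorExpansionsC_subset_tame N)

theorem algebraMap_eq_emb (a : A) : algebraMap L (LaurentSeries L) (a : L)
      = coeffMap A.subtype (HahnSeries.single 0 a) := by
  rw [coeffMap_single, algebraMap_laurentSeries_eq_single]; rfl

section Val

variable {F : IntermediateField L (LaurentSeries L)} (hF : IsTameField F)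

/-- An element of a tame field, or its inverse, is in the Gauss ring. -/
theorem mem_or_inv_mem_gaussRing {x : LaurentSeries L} (hx : x ∈ F) (hF : IsTameField F) :
    x ∈ gaussRing A π ∨ x⁻¹ ∈ gaussRing A π := by
  by_cases hx0 : x = 0
  · left; rw [hx0]; exact zero_mem _
  obtain ⟨P, hP, Q, hQ, hQ0, hxQ⟩ := hF x hx
  have hP0 : P ≠ 0 := by rw [← hxQ]; exact mul_ne_zero hx0 hQ0
  obtain ⟨c, hc0, P₀, hP₀, hcP, -⟩ := exists_normalize A π hP hP0
  obtain ⟨d, hd0, Q₀, hQ₀, hdQ, -⟩ := exists_normalize A π hQ hQ0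
  have hembP0 : coeffMap A.subtype P₀ ≠ 0 := by
    intro h; apply hP₀; rw [emb_injective A (h.trans (map_zero _).symm), map_zero]
  have hembQ0 : coeffMap A.subtype Q₀ ≠ 0 := by
    intro h; apply hQ₀; rw [emb_injective A (h.trans (map_zero _).symm), map_zero]
  have hC := algebraMap_eq_emb A
  rcases A.mem_or_inv_mem (c / d) with h | h
  · left
    refine ⟨HahnSeries.single 0 (⟨c / d, h⟩ : A) * P₀, Q₀, hQ₀, ?_⟩
    rw [map_mul, ← hC]
    simp only
    rw [← hdQ, ← hcP] at hxQ
    have hd' : algebraMap L (LaurentSeries L) d ≠ 0 := by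
      rwa [ne_eq, map_eq_zero_iff _ (algebraMap L (LaurentSeries L)).injective]
    have := mul_left_cancel₀ hd' (a := algebraMap L (LaurentSeries L) d)
      (b := x * coeffMap A.subtype Q₀)
      (c := algebraMap L (LaurentSeries L) (c / d) * coeffMap A.subtype P₀) (by
        rw [show algebraMap L (LaurentSeries L) d * (x * coeffMap A.subtype Q₀)
          = x * (algebraMap L (LaurentSeries L) d * coeffMap A.subtype Q₀) by ring, hxQ,
          map_div₀]
        field_simp)
    exact this
  · right
    have h' : d / c ∈ A := by rwa [inv_div] at h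
    refine ⟨HahnSeries.single 0 (⟨d / c, h'⟩ : A) * Q₀, P₀, hP₀, ?_⟩
    rw [map_mul, ← hC]
    simp only
    rw [← hdQ, ← hcP] at hxQ
    have hc' : algebraMap L (LaurentSeries L) c ≠ 0 := by
      rwa [ne_eq, map_eq_zero_iff _ (algebraMap L (LaurentSeries L)).injective]
    have := mul_left_cancel₀ hc' (a := algebraMap L (LaurentSeries L) c)
      (b := x⁻¹ * coeffMap A.subtype P₀)
      (c := algebraMap L (LaurentSeries L) (d / c) * coeffMap A.subtype Q₀) (by
        rw [show algebraMap L (LaurentSeries L) c * (x⁻¹ * coeffMap A.subtype P₀)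
          = x⁻¹ * (algebraMap L (LaurentSeries L) c * coeffMap A.subtype P₀) by ring, ← hxQ,
          map_div₀]
        field_simp)
    exact this

/-- The Gauss valuation ring of a tame field. -/
def gaussVal : ValuationSubring F where
  toSubring := (gaussRing A π).comap (F.val : F →+* LaurentSeries L)
  mem_or_inv_mem' x := by
    have := mem_or_inv_mem_gaussRing A π x.2 hF
    exact this

theorem mem_gaussVal_iff {x : F} :
    x ∈ gaussVal A π hF ↔ (x : LaurentSeries L) ∈ gaussRing A π := Iff.rfl

/-- the inclusion of the valuation ring in the Gauss ring -/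
def gaussValIncl : gaussVal A π hF →+* gaussRing A π :=
  RingHom.codRestrict ((F.val : F →+* LaurentSeries L).comp (gaussVal A π hF).subtype)
    (gaussRing A π) (fun x => x.2)

@[simp] theorem coe_gaussValIncl (x : gaussVal A π hF) :
    ((gaussValIncl A π hF x : gaussRing A π) : LaurentSeries L) = ((x : F) : LaurentSeries L) :=
  rfl

/-- residue map of the Gauss valuation ring -/
def gaussValRes : gaussVal A π hF →+* LaurentSeries κ :=
  (gaussRes A π).comp (gaussValIncl A π hF)

theorem gaussValRes_apply (x : gaussVal A π hF) :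
    gaussValRes A π hF x = gaussRes A π (gaussValIncl A π hF x) := rfl

theorem resLocal_gaussVal : ResLocal (gaussVal A π hF) (gaussValRes A π hF) := by
  intro x
  constructor
  · intro h
    by_contra hcon
    push Not at hcon
    obtain ⟨hx0, hxi⟩ := hcon
    have h1 : x * ⟨(x : F)⁻¹, hxi⟩ = 1 := Subtype.ext (mul_inv_cancel₀ hx0)
    have h2 := congrArg (gaussValRes A π hF) h1
    rw [map_mul, h, zero_mul, map_one] at h2
    exact zero_ne_one h2
  · rintro (h | h)
    · have : x = 0 := Subtype.ext h
      rw [this, map_zero]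
    · by_contra hcon
      apply h
      rw [mem_gaussVal_iff]
      have := inv_mem_gaussRing (A := A) (π := π) (x := gaussValIncl A π hF x) hcon
      rwa [coe_gaussValIncl] at this

end Val

section Const

theorem algebraMap_mem_gaussRing (a : A) :
    algebraMap L (LaurentSeries L) (a : L) ∈ gaussRing A π := by
  rw [algebraMap_eq_emb]; exact emb_mem_gaussRing _

theorem gaussRes_algebraMap (a : A) {x : gaussRing A π}
    (hx : (x : LaurentSeries L) = algebraMap L (LaurentSeries L) (a : L)) :
    gaussRes A π x = algebraMap κ (LaurentSeries κ) (π a) := by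
  rw [gaussRes_congr (y := ⟨coeffMap A.subtype (HahnSeries.single 0 a), emb_mem_gaussRing _⟩)
    (hx.trans (algebraMap_eq_emb A a)), gaussRes_emb, coeffMap_single,
    algebraMap_laurentSeries_eq_single]

theorem gaussRes_algebraMap_mul (a : A) {x y : gaussRing A π}
    (hx : (x : LaurentSeries L) = algebraMap L (LaurentSeries L) (a : L) * y) :
    gaussRes A π x = algebraMap κ (LaurentSeries κ) (π a) * gaussRes A π y := by
  rw [← gaussRes_algebraMap A π a
    (x := ⟨algebraMap L (LaurentSeries L) (a : L), algebraMap_mem_gaussRing A π a⟩) rfl,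
    ← map_mul]
  exact gaussRes_congr hx

variable [IsLocalHom π]

theorem map_eq_zero_of_inv_notMem {a : A} (h : (a : L)⁻¹ ∉ A) : π a = 0 := by
  by_contra hcon
  have h1 : IsUnit (π a) := isUnit_iff_ne_zero.mpr hcon
  have h2 : IsUnit a := isUnit_of_map_unit π a h1
  obtain ⟨b, hb⟩ := isUnit_iff_exists_inv.mp h2
  apply h
  have : (a : L)⁻¹ = b := by
    have hb' : (a : L) * b = 1 := congrArg Subtype.val hb
    exact inv_eq_of_mul_eq_one_right hb'
  rw [this]; exact b.2

variable {A π}

theorem mem_of_algebraMap_mem_gaussRing {a : L}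
    (h : algebraMap L (LaurentSeries L) a ∈ gaussRing A π) : a ∈ A := by
  by_contra ha
  have ha0 : a ≠ 0 := fun h0 => ha (h0 ▸ A.zero_mem)
  have hai : a⁻¹ ∈ A := (A.mem_or_inv_mem a).resolve_left ha
  have h1 : π ⟨a⁻¹, hai⟩ = 0 := map_eq_zero_of_inv_notMem A π (by simpa using ha)
  have h2 := gaussRes_algebraMap_mul A π ⟨a⁻¹, hai⟩ (x := 1)
    (y := ⟨algebraMap L (LaurentSeries L) a, h⟩) (by
      show (1 : LaurentSeries L) = algebraMap L (LaurentSeries L) a⁻¹ *
        algebraMap L (LaurentSeries L) a
      rw [← map_mul, inv_mul_cancel₀ ha0, map_one])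
  rw [h1, map_zero, zero_mul, map_one] at h2
  exact one_ne_zero h2

/-- A tame series in the Gauss ring has all its coefficients in `A`. -/
theorem coeff_mem_of_mem_gaussRing {x : LaurentSeries L} (hx : x ∈ tame L)
    (hx' : x ∈ gaussRing A π) : ∀ m, x.coeff m ∈ A := by
  by_cases hx0 : x = 0
  · intro m; rw [hx0, HahnSeries.coeff_zero]; exact A.zero_mem
  obtain ⟨c, hc0, P, hP, hcP, -⟩ := exists_normalize A π hx hx0
  by_cases hc : c ∈ A
  · intro m
    rw [← hcP, coeff_algebraMap_mul, coeffMap_coeff]
    exact A.mul_mem _ _ hc (P.coeff m).2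
  · exfalso
    have hci : c⁻¹ ∈ A := (A.mem_or_inv_mem c).resolve_left hc
    have h1 : π ⟨c⁻¹, hci⟩ = 0 := map_eq_zero_of_inv_notMem A π (by simpa using hc)
    have h2 := gaussRes_algebraMap_mul A π ⟨c⁻¹, hci⟩
      (x := ⟨coeffMap A.subtype P, emb_mem_gaussRing P⟩) (y := ⟨x, hx'⟩) (by
        show coeffMap A.subtype P = algebraMap L (LaurentSeries L) c⁻¹ * x
        rw [← hcP, ← mul_assoc, ← map_mul, inv_mul_cancel₀ hc0, map_one, one_mul])
    rw [h1, map_zero, zero_mul, gaussRes_emb] at h2
    exact hP h2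

theorem exists_lift_of_tame_of_mem {x : LaurentSeries L} (hx : x ∈ tame L)
    (hx' : x ∈ gaussRing A π) : ∃ P : LaurentSeries A, coeffMap A.subtype P = x :=
  exists_lift_of_coeff_mem A (coeff_mem_of_mem_gaussRing hx hx')

end Const

end Fermat.Agent.Igusa
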