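import Fermat.Agent.Igusa.ValRing
import Fermat.Agent.Deuring.Basic

/-!
# Integral closures of `A[z]` in a field with Deuring reduction data
-/

set_option autoImplicit false

noncomputable section

open Module Polynomial

namespace Fermat.Agent.Igusa

section Inf

variable {F : Type*} [Field F]

/-- `x` is a root of a monic polynomial with coefficients in `S`. -/
def IntOver (S : Set F) (x : F) : Prop := ∃ p : F[X], p.Monic ∧ p.eval x = 0 ∧ ∀ i, p.coeff i ∈ S

theorem IntOver.mono {S T : Set F} (h : S ⊆ T) {x : F} (hx : IntOver S x) : IntOver T x := by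
  obtain ⟨p, hp, hpx, hc⟩ := hx
  exact ⟨p, hp, hpx, fun i => h (hc i)⟩

theorem intOver_iff_range {A : Type*} [CommRing A] [Algebra A F] {x : F} :
    IsIntegral A x ↔ IntOver (Set.range (algebraMap A F)) x := by
  constructor
  · rintro ⟨p, hp, hpx⟩
    refine ⟨p.map (algebraMap A F), hp.map _, ?_, fun i => ?_⟩
    · rw [Polynomial.eval_map]; exact hpx
    · rw [Polynomial.coeff_map]; exact ⟨_, rfl⟩
  · rintro ⟨p, hp, hpx, hc⟩
    have hlifts : p ∈ Polynomial.lifts (algebraMap A F) :=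
      (Polynomial.lifts_iff_coeff_lifts p).mpr hc
    obtain ⟨q', hq'q, -, hq'monic⟩ := Polynomial.lifts_and_natDegree_eq_and_monic hlifts hp
    exact ⟨q', hq'monic, by rw [Polynomial.eval₂_eq_eval_map, hq'q, hpx]⟩

theorem intOver_subring {R : Subring F} {x : F} : IsIntegral R x ↔ IntOver (R : Set F) x := by
  rw [intOver_iff_range]
  have : Set.range (algebraMap R F) = (R : Set F) := Subtype.range_coe
  rw [this]

theorem intOver_subalgebra {A : Type*} [CommRing A] [Algebra A F] {S : Subalgebra A F} {x : F} :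
    IsIntegral S x ↔ IntOver (S : Set F) x := by
  rw [intOver_iff_range]
  have : Set.range (algebraMap S F) = (S : Set F) := Subtype.range_coe
  rw [this]

theorem mem_of_intOver_valuationSubring (O : ValuationSubring F) {x : F}
    (hx : IntOver (O : Set F) x) : x ∈ O := by
  have h1 : IsIntegral O x := by
    rw [intOver_iff_range]
    refine hx.mono (fun y hy => ?_)
    exact ⟨⟨y, hy⟩, rfl⟩
  obtain ⟨y, hy⟩ := (IsIntegrallyClosed.isIntegral_iff (R := O) (K := F)).mp h1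
  rw [← hy]; exact y.2

variable {F₀ : Subfield F}

theorem isIntegral_coeff_minpoly {R : Subring F} (h : R ≤ F₀.toSubring) {x : F}
    (hx : IsIntegral R x) (i : ℕ) :
    IsIntegral R (((minpoly F₀ x).coeff i : F₀) : F) := by
  obtain ⟨p, hp, hpx⟩ := hx
  let ι : R →+* F₀ := Subring.inclusion h
  let : Algebra R F₀ := ι.toAlgebra
  have hx0 : IsIntegral F₀ x := by
    refine ⟨p.map ι, hp.map _, ?_⟩
    rw [Polynomial.eval₂_map]
    exact hpx
  have hdvd : minpoly F₀ x ∣ p.map (algebraMap R F₀) := by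
    refine minpoly.dvd F₀ x ?_
    rw [Polynomial.aeval_def, Polynomial.eval₂_map]
    exact hpx
  have h1 := Polynomial.isIntegral_coeff_of_dvd p (minpoly F₀ x) hp (minpoly.monic hx0) hdvd i
  obtain ⟨r, hr, hrx⟩ := h1
  refine ⟨r, hr, ?_⟩
  have h3 : F₀.subtype (Polynomial.eval₂ (algebraMap R F₀) ((minpoly F₀ x).coeff i) r)
      = Polynomial.eval₂ ((F₀.subtype).comp (algebraMap R F₀)) ((minpoly F₀ x).coeff i : F) r :=
    Polynomial.hom_eval₂ r (algebraMap R F₀) F₀.subtype _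
  rw [hrx, map_zero] at h3
  exact h3.symm

/-- an element integral over two subrings integrally closed in a common subfield is integral over
the intersection. -/
theorem isIntegral_inf {R₁ R₂ : Subring F}
    (h₁ : R₁ ≤ F₀.toSubring) (h₂ : R₂ ≤ F₀.toSubring)
    (c₁ : ∀ c ∈ F₀, IntOver (R₁ : Set F) c → c ∈ R₁)
    (c₂ : ∀ c ∈ F₀, IntOver (R₂ : Set F) c → c ∈ R₂)
    {x : F} (hx₁ : IntOver (R₁ : Set F) x) (hx₂ : IntOver (R₂ : Set F) x) :
    IntOver ((R₁ ⊓ R₂ : Subring F) : Set F) x := by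
  rw [← intOver_subring] at hx₁ hx₂
  have hx0 : IsIntegral F₀ x := by
    obtain ⟨p, hp, hpx⟩ := hx₁
    refine ⟨p.map (Subring.inclusion h₁ : R₁ →+* F₀), hp.map _, ?_⟩
    rw [Polynomial.eval₂_map]
    exact hpx
  refine ⟨(minpoly F₀ x).map F₀.subtype, (minpoly.monic hx0).map _, ?_, fun i => ?_⟩
  · rw [Polynomial.eval_map]
    exact minpoly.aeval F₀ x
  · rw [Polynomial.coeff_map]
    exact ⟨c₁ _ (Subtype.prop _) (intOver_subring.mp (isIntegral_coeff_minpoly h₁ hx₁ i)),
      c₂ _ (Subtype.prop _) (intOver_subring.mp (isIntegral_coeff_minpoly h₂ hx₂ i))⟩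

end Inf

section Chart

variable {L k F F₁ : Type*} [Field L] [Field k] [Field F] [Field F₁] [Algebra L F] [Algebra k F₁]
variable (𝔇 : Deuring.Data L k F F₁)

/-- a polynomial in `z` lying in `O` has its coefficients in `A` when the residue of `z` is
transcendental. -/
theorem coeff_mem_of_aeval_mem {z : 𝔇.O} (hz : Transcendental k (𝔇.res z)) {p : L[X]}
    (hp : aeval (z : F) p ∈ 𝔇.O) (i : ℕ) : p.coeff i ∈ 𝔇.A := by
  by_cases hi : i < p.natDegree + 1
  · have hli : LinearIndependent k (fun i : Fin (p.natDegree + 1) => 𝔇.res (z ^ (i : ℕ))) := by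
      have h1 := (transcendental_iff_injective.mp hz)
      have h2 : LinearIndependent k (fun n : ℕ => (𝔇.res z) ^ n) := by
        have h3 := (Polynomial.basisMonomials k).linearIndependent.map'
          (aeval (𝔇.res z) : k[X] →ₐ[k] F₁).toLinearMap (LinearMap.ker_eq_bot.mpr h1)
        refine cast ?_ h3
        congr 1
        ext n
        simp
      have h4 := h2.comp (fun i : Fin (p.natDegree + 1) => (i : ℕ)) Fin.val_injective
      refine cast ?_ h4
      congr 1
      ext n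
      simp
    have h5 := 𝔇.coeff_mem (fun i : Fin (p.natDegree + 1) => z ^ (i : ℕ)) hli
      (fun i => p.coeff i) (by
        rw [Polynomial.aeval_eq_sum_range] at hp
        rw [Finset.sum_range] at hp
        exact hp)
    exact h5 ⟨i, hi⟩
  · rw [Polynomial.coeff_eq_zero_of_natDegree_lt (by omega)]
    exact 𝔇.A.zero_mem

/-- the maximal ideal of `O` is generated by that of `A` (discrete case) -/
theorem div_mem_of_res_eq_zero {ϖ : L} (hϖ : ∀ a : 𝔇.A, 𝔇.π a = 0 → ϖ⁻¹ * (a : L) ∈ 𝔇.A)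
    {x : 𝔇.O} (hx : 𝔇.res x = 0) : algebraMap L F ϖ⁻¹ * (x : F) ∈ 𝔇.O := by
  by_cases hx0 : (x : F) = 0
  · rw [hx0, mul_zero]; exact 𝔇.O.zero_mem
  obtain ⟨c, hc0, hcx, hres⟩ := 𝔇.exists_smul_res_ne_zero hx0
  have hcA : c ∉ 𝔇.A := by
    intro hc
    apply hres
    have : (⟨c • (x : F), hcx⟩ : 𝔇.O) = 𝔇.cst ⟨c, hc⟩ * x := by
      apply Subtype.ext
      show c • (x : F) = algebraMap L F c * x
      rw [Algebra.smul_def]
    rw [this, map_mul, hx, mul_zero]
  have hci : c⁻¹ ∈ 𝔇.A := (𝔇.A.mem_or_inv_mem c).resolve_left hcA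
  have hπ : 𝔇.π ⟨c⁻¹, hci⟩ = 0 := by
    rw [𝔇.π_ker]
    intro hu
    apply hcA
    obtain ⟨b', hb'⟩ := hu.exists_right_inv
    have h1 : (c)⁻¹ * (b' : L) = 1 := congrArg Subtype.val hb'
    have h2 : c = b' := by
      field_simp at h1
      exact h1.symm
    rw [h2]
    exact b'.2
  have h1 := hϖ _ hπ
  have h2 : algebraMap L F ϖ⁻¹ * (x : F) = algebraMap L F (ϖ⁻¹ * c⁻¹) * (c • (x : F)) := by
    rw [Algebra.smul_def, ← mul_assoc, ← map_mul, mul_assoc, inv_mul_cancel₀ hc0, mul_one]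
  rw [h2]
  exact 𝔇.O.mul_mem _ _ ((𝔇.mem_iff _).mpr h1) hcx

variable {R : Type*} [CommRing R] [Algebra R F] [Algebra R L] [IsScalarTower R L F]

variable {z : 𝔇.O} (hz : Transcendental k (𝔇.res z))
  (hR : ∀ a : L, a ∈ 𝔇.A ↔ ∃ r : R, algebraMap R L r = a)

include hR in
theorem adjoin_le_O {x : F} (hx : x ∈ Algebra.adjoin R {(z : F)}) : x ∈ 𝔇.O := by
  induction hx using Algebra.adjoin_induction with
  | mem y hy => rw [Set.mem_singleton_iff.mp hy]; exact z.2
  | algebraMap r =>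
    rw [IsScalarTower.algebraMap_apply R L F, 𝔇.mem_iff, hR]; exact ⟨r, rfl⟩
  | add y z _ _ hy hz => exact 𝔇.O.add_mem _ _ hy hz
  | mul y z _ _ hy hz => exact 𝔇.O.mul_mem _ _ hy hz

include hR in
/-- integral elements over `R[z]` are in `O` -/
theorem mem_O_of_intOver {x : F} (hx : IntOver (Algebra.adjoin R {(z : F)} : Set F) x) :
    x ∈ 𝔇.O :=
  mem_of_intOver_valuationSubring _ (hx.mono (fun _ hy => adjoin_le_O 𝔇 hR hy))

variable {F₀ : Subfield F}

include hz hR in
theorem mem_adjoin_of_mem {c : F} (h1 : c ∈ Algebra.adjoin L {(z : F)}) (h2 : c ∈ 𝔇.O) :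
    c ∈ Algebra.adjoin R {(z : F)} := by
  rw [Algebra.adjoin_singleton_eq_range_aeval] at h1
  obtain ⟨q, hq⟩ := h1
  have hq' : aeval (z : F) q ∈ 𝔇.O := by
    rw [show aeval (z : F) q = c from hq]; exact h2
  have hqA := coeff_mem_of_aeval_mem 𝔇 hz hq'
  rw [show c = aeval (z : F) q from hq.symm, Polynomial.aeval_eq_sum_range]
  refine sum_mem fun n _ => ?_
  obtain ⟨r, hr⟩ := (hR _).mp (hqA n)
  rw [← hr, Algebra.smul_def, ← IsScalarTower.algebraMap_apply]
  have h3 := Algebra.self_mem_adjoin_singleton R (z : F)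
  exact mul_mem (Subalgebra.algebraMap_mem _ _) (pow_mem h3 _)

include hz hR in
theorem intOver_div
    (hF₀ : ∀ c : F, c ∈ F₀ ↔ c ∈ IntermediateField.adjoin L {(z : F)})
    (hclosed : ∀ c ∈ F₀, IntOver (Algebra.adjoin L {(z : F)} : Set F) c →
      c ∈ Algebra.adjoin L {(z : F)})
    (hint : ∀ x ∈ 𝔇.O, IntOver ((𝔇.O.toSubring ⊓ F₀.toSubring : Subring F) : Set F) x)
    {ϖ : L} (hϖ : ∀ a : 𝔇.A, 𝔇.π a = 0 → ϖ⁻¹ * (a : L) ∈ 𝔇.A)
    {x : F} (hx : IntOver (Algebra.adjoin R {(z : F)} : Set F) x)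
    (hres : 𝔇.res ⟨x, mem_O_of_intOver 𝔇 hR hx⟩ = 0) :
    IntOver (Algebra.adjoin R {(z : F)} : Set F) (algebraMap L F ϖ⁻¹ * x) := by
  have hyO : algebraMap L F ϖ⁻¹ * x ∈ 𝔇.O := div_mem_of_res_eq_zero 𝔇 hϖ hres
  have hy₂ := hint _ hyO
  -- integral over `L[z]`
  have hle : Algebra.adjoin R {(z : F)} ≤ (Algebra.adjoin L {(z : F)}).restrictScalars R := by
    rw [Algebra.adjoin_le_iff, Set.singleton_subset_iff]
    exact Algebra.subset_adjoin rfl
  have hx₁ : IntOver (Algebra.adjoin L {(z : F)} : Set F) x := hx.mono (fun _ h => hle h)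
  have hy₁ : IntOver (Algebra.adjoin L {(z : F)} : Set F) (algebraMap L F ϖ⁻¹ * x) := by
    rw [← intOver_subalgebra] at hx₁ ⊢
    refine IsIntegral.mul ?_ hx₁
    have : algebraMap L F ϖ⁻¹ = algebraMap (Algebra.adjoin L {(z : F)}) F
      ⟨algebraMap L F ϖ⁻¹, Subalgebra.algebraMap_mem _ _⟩ := rfl
    rw [this]
    exact isIntegral_algebraMap
  have hadj : (Algebra.adjoin L {(z : F)}).toSubring ≤ F₀.toSubring := by
    intro c hc
    show c ∈ F₀
    rw [hF₀]
    exact IntermediateField.algebra_adjoin_le_adjoin L _ hc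
  have key := isIntegral_inf (F₀ := F₀) (R₂ := 𝔇.O.toSubring ⊓ F₀.toSubring) hadj inf_le_right
    hclosed (fun c hc h => ?_) hy₁ hy₂
  · refine key.mono fun c hc => ?_
    have h1 := Subring.mem_inf.mp hc
    exact mem_adjoin_of_mem 𝔇 hz hR h1.1 (Subring.mem_inf.mp h1.2).1
  · refine Subring.mem_inf.mpr ⟨mem_of_intOver_valuationSubring _ (h.mono fun y hy => ?_), hc⟩
    exact (Subring.mem_inf.mp hy).1

end Chart

end Fermat.Agent.Igusa
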