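import Fermat.Agent.Igusa.Lat

/-!
# Degree argument

If `[F : B] = [F₁ : B₁]` and everything in `F₁` lifts, then the residue field of the Gauss
valuation ring of `F` is exactly `F₁` and there is a residually independent basis.
-/

set_option autoImplicit false

noncomputable section

open HahnSeries ModularCurve Module

namespace Fermat.Agent.Igusa

variable {L : Type*} [Field L] (A : ValuationSubring L) {κ : Type*} [Field κ] (π : A →+* κ)
variable {F : IntermediateField L (LaurentSeries L)} (hF : IsTameField F)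
variable (F₁ : IntermediateField κ (LaurentSeries κ))
variable (B : IntermediateField L (LaurentSeries L)) (B₁ : IntermediateField κ (LaurentSeries κ))

/-- the subfield `B ∩ F` of `F` -/
def baseSub (F B : IntermediateField L (LaurentSeries L)) : Subfield F :=
  B.toSubfield.comap (F.val : F →+* LaurentSeries L)

theorem mem_baseSub {F B : IntermediateField L (LaurentSeries L)} {x : F} :
    x ∈ baseSub F B ↔ (x : LaurentSeries L) ∈ B := Iff.rfl

theorem finrank_baseSub (F B : IntermediateField L (LaurentSeries L)) :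
    finrank (baseSub F B) F = IntermediateField.relfinrank B F := by
  have h := Subfield.finrank_comap B.toSubfield (F.val : F →+* LaurentSeries L)
  rw [baseSub, h, IntermediateField.relfinrank]
  congr 1
  ext x
  simp

/-- linear independence over `B₁` of residues -/
theorem resIndep_of_linearIndependent
    (h1 : ∀ x : gaussVal A π hF, ((x : F) : LaurentSeries L) ∈ B → gaussValRes A π hF x ∈ B₁)
    {ι : Type*} [Fintype ι] (b : ι → gaussVal A π hF)
    (hb : ∀ c : ι → LaurentSeries κ, (∀ i, c i ∈ B₁) →
      ∑ i, c i * gaussValRes A π hF (b i) = 0 → ∀ i, c i = 0) :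
    ResIndep (gaussVal A π hF) (gaussValRes A π hF) (baseSub F B) b := by
  intro a ha hsum i
  exact hb (fun i => gaussValRes A π hF (a i)) (fun i => h1 _ (ha i)) hsum i

/-- a basis of `F₁` over `B₁`, in concrete terms -/
theorem exists_basis_concrete {d : ℕ} (hd : IntermediateField.relfinrank B₁ F₁ = d)
    (hpos : 0 < d) (hB₁ : B₁ ≤ F₁) :
    ∃ y : Fin d → LaurentSeries κ,
      (∀ i, y i ∈ F₁) ∧
      (∀ c : Fin d → LaurentSeries κ, (∀ i, c i ∈ B₁) →
        ∑ i, c i * y i = 0 → ∀ i, c i = 0) ∧
      (∀ z ∈ F₁, ∃ c : Fin d → LaurentSeries κ,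
        (∀ i, c i ∈ B₁) ∧ z = ∑ i, c i * y i) := by
  rw [← finrank_baseSub] at hd
  subst hd
  have : FiniteDimensional (baseSub F₁ B₁) F₁ := FiniteDimensional.of_finrank_pos hpos
  let e := Module.finBasis (baseSub F₁ B₁) F₁
  refine ⟨fun i => ((e i : F₁) : LaurentSeries κ), fun i => (e i).2, ?_, ?_⟩
  · intro c hc hsum i
    have hli := e.linearIndependent
    rw [Fintype.linearIndependent_iff] at hli
    let g : Fin (finrank (baseSub F₁ B₁) F₁) → baseSub F₁ B₁ := fun i => ⟨⟨c i, hB₁ (hc i)⟩, hc i⟩
    have h := hli g (by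
      apply Subtype.ext
      have : ((∑ i, g i • e i : F₁) : LaurentSeries κ)
          = ∑ i, c i * ((e i : F₁) : LaurentSeries κ) := by
        push_cast
        rfl
      rw [this, hsum]; rfl) i
    exact congrArg (fun z : baseSub F₁ B₁ => ((z : F₁) : LaurentSeries κ)) h
  · intro z hz
    refine ⟨fun i => ((e.repr ⟨z, hz⟩ i : F₁) : LaurentSeries κ), fun i => (e.repr ⟨z, hz⟩ i).2, ?_⟩
    have h := e.sum_repr ⟨z, hz⟩
    have h2 := congrArg (fun z : F₁ => (z : LaurentSeries κ)) h
    simp only at h2
    refine h2.symm.trans ?_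
    push_cast
    rfl

variable (h1 : ∀ x : gaussVal A π hF, ((x : F) : LaurentSeries L) ∈ B → gaussValRes A π hF x ∈ B₁)
  (h2 : ∀ y ∈ F₁, ∃ x : gaussVal A π hF, gaussValRes A π hF x = y)
  (hB₁ : B₁ ≤ F₁) {d : ℕ} (hd : IntermediateField.relfinrank B₁ F₁ = d)
  (hpos : 0 < d)

include h1 h2 hB₁ hpos hd

theorem exists_resIndep :
    ∃ b : Fin d → gaussVal A π hF,
      ResIndep (gaussVal A π hF) (gaussValRes A π hF) (baseSub F B) b ∧
      (∀ i, gaussValRes A π hF (b i) ∈ F₁) := by
  obtain ⟨y, hy, hli, -⟩ := exists_basis_concrete F₁ B₁ hd hpos hB₁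
  choose b hb using fun i => h2 (y i) (hy i)
  refine ⟨b, resIndep_of_linearIndependent A π hF B B₁ h1 b ?_, fun i => (hb i).symm ▸ hy i⟩
  intro c hc hsum
  refine hli c hc ?_
  rw [← hsum]
  exact Finset.sum_congr rfl fun i _ => by rw [hb i]

/-- All residues are in `F₁`. -/
theorem gaussValRes_mem
    (hdeg : IntermediateField.relfinrank B F = d)
    (x : gaussVal A π hF) : gaussValRes A π hF x ∈ F₁ := by
  obtain ⟨y, hy, hli, hspan⟩ := exists_basis_concrete F₁ B₁ hd hpos hB₁
  choose b hb using fun i => h2 (y i) (hy i)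
  by_contra hx
  have hfin : 0 < finrank (baseSub F B) F := by
    rw [finrank_baseSub, hdeg]; exact hpos
  have : FiniteDimensional (baseSub F B) F := FiniteDimensional.of_finrank_pos hfin
  have hres : ResIndep (gaussVal A π hF) (gaussValRes A π hF) (baseSub F B)
      (Fin.cons x b : Fin (d + 1) → gaussVal A π hF) := by
    refine resIndep_of_linearIndependent A π hF B B₁ h1 _ ?_
    intro c hc hsum
    rw [Fin.sum_univ_succ] at hsum
    simp only [Fin.cons_zero, Fin.cons_succ] at hsum
    have hc0 : c 0 = 0 := by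
      by_contra hc0
      apply hx
      have h3 : gaussValRes A π hF x
          = (c 0)⁻¹ * -(∑ i : Fin d, c i.succ * gaussValRes A π hF (b i)) := by
        rw [← eq_neg_iff_add_eq_zero] at hsum
        rw [← hsum, ← mul_assoc, inv_mul_cancel₀ hc0, one_mul]
      rw [h3]
      refine mul_mem (inv_mem (hB₁ (hc 0))) (neg_mem (sum_mem fun i _ => mul_mem (hB₁ (hc _)) ?_))
      rw [hb i]; exact hy i
    have hrest : ∀ i : Fin d, c i.succ = 0 := by
      refine hli (fun i => c i.succ) (fun i => hc _) ?_
      rw [hc0, zero_mul, zero_add] at hsum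
      rw [← hsum]
      exact Finset.sum_congr rfl fun i _ => by rw [hb i]
    intro i
    refine Fin.cases hc0 (fun i => hrest i) i
  have hli' := hres.linearIndependent
  have hcard := hli'.fintype_card_le_finrank
  rw [Fintype.card_fin, finrank_baseSub, hdeg] at hcard
  omega

end Fermat.Agent.Igusa
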