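import Mathlib
import Fermat.Prelude.Def_ModularCurve_X0ModL
import Fermat.Prelude.Def_ModularCurve_LaurentCoeff

/-!
# Gauss valuation on fields of Laurent series

`A` is a valuation ring of a field `L`, `π : A →+* κ` a ring hom to a field whose kernel is the
maximal ideal.  We define the subring `gaussRing A π` of `LaurentSeries L` of those `x` which can be
written `P / Q`, `P, Q ∈ A((q))`, with the reduction of `Q` non zero, and the reduction
map `gaussRes : gaussRing A π →+* LaurentSeries κ`.
-/

set_option autoImplicit false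

noncomputable section

open HahnSeries ModularCurve

namespace Fermat.Agent.Igusa

section Emb

variable {L : Type*} [Field L] (A : ValuationSubring L) {κ : Type*} [Field κ] (π : A →+* κ)

theorem coeffMap_injective_of_injective {R S : Type*} [CommRing R] [CommRing S] {f : R →+* S}
    (hf : Function.Injective f) : Function.Injective (coeffMap f) := by
  intro x y hxy
  ext k
  apply hf
  have := congrArg (fun z => z.coeff k) hxy
  simpa using this

theorem emb_injective : Function.Injective (coeffMap A.subtype) :=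
  coeffMap_injective_of_injective Subtype.val_injective

/-- The Gauss ring. -/
def gaussRing : Subring (LaurentSeries L) where
  carrier := {x | ∃ P Q : LaurentSeries A, coeffMap π Q ≠ 0 ∧
    x * coeffMap A.subtype Q = coeffMap A.subtype P}
  mul_mem' := by
    rintro x y ⟨P, Q, hQ, hx⟩ ⟨P', Q', hQ', hy⟩
    refine ⟨P * P', Q * Q', ?_, ?_⟩
    · rw [map_mul]; exact mul_ne_zero hQ hQ'
    · rw [map_mul, map_mul, ← hx, ← hy]; ring
  one_mem' := ⟨1, 1, by rw [map_one]; exact one_ne_zero, by rw [map_one, one_mul]⟩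
  add_mem' := by
    rintro x y ⟨P, Q, hQ, hx⟩ ⟨P', Q', hQ', hy⟩
    refine ⟨P * Q' + P' * Q, Q * Q', ?_, ?_⟩
    · rw [map_mul]; exact mul_ne_zero hQ hQ'
    · rw [map_mul, map_add, map_mul, map_mul, ← hx, ← hy]; ring
  zero_mem' := ⟨0, 1, by rw [map_one]; exact one_ne_zero, by rw [map_zero, zero_mul]⟩
  neg_mem' := by
    rintro x ⟨P, Q, hQ, hx⟩
    exact ⟨-P, Q, hQ, by rw [map_neg, ← hx]; ring⟩

variable {A π}

theorem mem_gaussRing_iff {x : LaurentSeries L} :
    x ∈ gaussRing A π ↔ ∃ P Q : LaurentSeries A, coeffMap π Q ≠ 0 ∧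
      x * coeffMap A.subtype Q = coeffMap A.subtype P := Iff.rfl

theorem emb_mem_gaussRing (P : LaurentSeries A) : coeffMap A.subtype P ∈ gaussRing A π :=
  ⟨P, 1, by rw [map_one]; exact one_ne_zero, by rw [map_one, mul_one]⟩

theorem gauss_wd {x : LaurentSeries L} {P Q P' Q' : LaurentSeries A}
    (hQ : coeffMap π Q ≠ 0) (hx : x * coeffMap A.subtype Q = coeffMap A.subtype P)
    (hQ' : coeffMap π Q' ≠ 0) (hx' : x * coeffMap A.subtype Q' = coeffMap A.subtype P') :
    coeffMap π P / coeffMap π Q = coeffMap π P' / coeffMap π Q' := by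
  have h : P * Q' = P' * Q := by
    apply emb_injective A
    rw [map_mul, map_mul, ← hx, ← hx']; ring
  rw [div_eq_div_iff hQ hQ', ← map_mul, ← map_mul, h]

/-- The reduction map on the Gauss ring, as a function. -/
def gaussResFun (x : gaussRing A π) : LaurentSeries κ :=
  coeffMap π x.2.choose / coeffMap π x.2.choose_spec.choose

theorem gaussResFun_eq (x : gaussRing A π) {P Q : LaurentSeries A}
    (hQ : coeffMap π Q ≠ 0)
    (hx : (x : LaurentSeries L) * coeffMap A.subtype Q = coeffMap A.subtype P) :
    gaussResFun x = coeffMap π P / coeffMap π Q :=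
  gauss_wd x.2.choose_spec.choose_spec.1 x.2.choose_spec.choose_spec.2 hQ hx

variable (A π) in
/-- The reduction map on the Gauss ring. -/
def gaussRes : gaussRing A π →+* LaurentSeries κ where
  toFun := gaussResFun
  map_one' := by
    rw [gaussResFun_eq (P := 1) (Q := 1) 1 (by rw [map_one]; exact one_ne_zero)
      (by simp), map_one, div_one]
  map_mul' := by
    rintro x y
    obtain ⟨P, Q, hQ, hx⟩ := x.2
    obtain ⟨P', Q', hQ', hy⟩ := y.2
    have hxy : ((x * y : gaussRing A π) : LaurentSeries L) * coeffMap A.subtype (Q * Q')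
        = coeffMap A.subtype (P * P') := by
      rw [map_mul, map_mul, ← hx, ← hy, Subring.coe_mul]; ring
    rw [gaussResFun_eq x hQ hx, gaussResFun_eq y hQ' hy,
      gaussResFun_eq (P := P * P') (Q := Q * Q') _ (by rw [map_mul]; exact mul_ne_zero hQ hQ')
      hxy, map_mul, map_mul]
    field_simp
  map_zero' := by
    rw [gaussResFun_eq (P := 0) (Q := 1) 0 (by rw [map_one]; exact one_ne_zero)
      (by simp), map_zero, zero_div]
  map_add' := by
    rintro x y
    obtain ⟨P, Q, hQ, hx⟩ := x.2
    obtain ⟨P', Q', hQ', hy⟩ := y.2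
    have hxy : ((x + y : gaussRing A π) : LaurentSeries L) * coeffMap A.subtype (Q * Q')
        = coeffMap A.subtype (P * Q' + P' * Q) := by
      rw [map_add, map_mul, map_mul, map_mul, ← hx, ← hy, Subring.coe_add]; ring
    rw [gaussResFun_eq x hQ hx, gaussResFun_eq y hQ' hy,
      gaussResFun_eq (P := P * Q' + P' * Q) (Q := Q * Q') _
      (by rw [map_mul]; exact mul_ne_zero hQ hQ') hxy, map_mul, map_add, map_mul, map_mul]
    field_simp

theorem gaussRes_eq (x : gaussRing A π) {P Q : LaurentSeries A}
    (hQ : coeffMap π Q ≠ 0)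
    (hx : (x : LaurentSeries L) * coeffMap A.subtype Q = coeffMap A.subtype P) :
    gaussRes A π x = coeffMap π P / coeffMap π Q :=
  gaussResFun_eq x hQ hx

theorem gaussRes_emb (P : LaurentSeries A) :
    gaussRes A π ⟨coeffMap A.subtype P, emb_mem_gaussRing P⟩ = coeffMap π P := by
  rw [gaussRes_eq (P := P) (Q := 1) _ (by rw [map_one]; exact one_ne_zero) (by simp),
    map_one, div_one]

theorem gaussRes_congr {x y : gaussRing A π} (h : (x : LaurentSeries L) = y) :
    gaussRes A π x = gaussRes A π y := by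
  rw [Subtype.ext h]

/-- An element of the Gauss ring with non zero residue is a unit of the Gauss ring. -/
theorem inv_mem_gaussRing {x : gaussRing A π} (hx : gaussRes A π x ≠ 0) :
    (x : LaurentSeries L)⁻¹ ∈ gaussRing A π := by
  obtain ⟨P, Q, hQ, hxPQ⟩ := x.2
  rw [gaussRes_eq _ hQ hxPQ] at hx
  have hP : coeffMap π P ≠ 0 := fun h => hx (by rw [h, zero_div])
  have hx0 : (x : LaurentSeries L) ≠ 0 := by
    intro h0
    apply hP
    have : P = 0 := emb_injective A (by rw [← hxPQ, map_zero, h0, zero_mul])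
    rw [this, map_zero]
  have key : (x : LaurentSeries L)⁻¹ * coeffMap A.subtype P = coeffMap A.subtype Q := by
    rw [← hxPQ]; exact inv_mul_cancel_left₀ hx0 _
  exact ⟨Q, P, hP, key⟩

theorem gaussRes_inv {x : gaussRing A π} (hx : gaussRes A π x ≠ 0) :
    gaussRes A π ⟨(x : LaurentSeries L)⁻¹, inv_mem_gaussRing hx⟩ = (gaussRes A π x)⁻¹ := by
  apply eq_inv_of_mul_eq_one_left
  rw [← map_mul, ← map_one (gaussRes A π)]
  congr 1
  apply Subtype.ext
  have : (x : LaurentSeries L) ≠ 0 := by
    intro h
    apply hx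
    rw [← map_zero (gaussRes A π)]
    exact gaussRes_congr h
  show (x : LaurentSeries L)⁻¹ * x = 1
  exact inv_mul_cancel₀ this

end Emb

section Tame

theorem coeff_algebraMap_mul {L : Type*} [Field L] (c : L) (x : LaurentSeries L) (n : ℤ) :
    (algebraMap L (LaurentSeries L) c * x).coeff n = c * x.coeff n := by
  rw [algebraMap_laurentSeries_eq_single]
  have := HahnSeries.coeff_single_mul_add (r := c) (x := x) (a := n) (b := 0)
  rwa [add_zero] at this

variable (L : Type*) [Field L]

/-- Laurent series whose coefficients lie in a finitely generated subgroup. -/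
def tame : Subalgebra L (LaurentSeries L) where
  carrier := {x | ∃ M : Submodule ℤ L, M.FG ∧ ∀ n, x.coeff n ∈ M}
  mul_mem' := by
    rintro x y ⟨M, hM, hx⟩ ⟨N, hN, hy⟩
    refine ⟨M * N, hM.mul hN, fun n => ?_⟩
    rw [HahnSeries.coeff_mul]
    exact Submodule.sum_mem _ fun ij _ => Submodule.mul_mem_mul (hx _) (hy _)
  add_mem' := by
    rintro x y ⟨M, hM, hx⟩ ⟨N, hN, hy⟩
    refine ⟨M ⊔ N, hM.sup hN, fun n => ?_⟩
    rw [HahnSeries.coeff_add]
    exact Submodule.add_mem_sup (hx _) (hy _)
  algebraMap_mem' := by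
    intro c
    refine ⟨Submodule.span ℤ {c}, Submodule.fg_span_singleton c, fun n => ?_⟩
    rw [algebraMap_laurentSeries_eq_single]
    by_cases h : n = 0
    · subst h
      rw [HahnSeries.coeff_single_same]
      exact Submodule.mem_span_singleton_self c
    · rw [HahnSeries.coeff_single_of_ne h]
      exact Submodule.zero_mem _

variable {L}

theorem mem_tame_iff {x : LaurentSeries L} :
    x ∈ tame L ↔ ∃ M : Submodule ℤ L, M.FG ∧ ∀ n, x.coeff n ∈ M := Iff.rfl

theorem intCast_coeff_mem_tame {x : LaurentSeries L} (y : LaurentSeries ℤ)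
    (h : x = coeffMap (Int.castRingHom L) y) : x ∈ tame L := by
  refine ⟨Submodule.span ℤ {1}, Submodule.fg_span_singleton 1, fun n => ?_⟩
  rw [h, coeffMap_coeff, Submodule.mem_span_singleton]
  exact ⟨y.coeff n, by simp⟩

theorem qExpand_jqModC_mem_tame (d : ℕ) [NeZero d] : qExpand L d (jqModC L) ∈ tame L := by
  refine intCast_coeff_mem_tame (qExpand ℤ d (jqModC ℤ)) ?_
  rw [coeffMap_qExpand, coeffMap_jqModC]

variable (A : ValuationSubring L)

/-- A non zero tame series has a coefficient dividing all the others. -/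
theorem exists_max_coeff {x : LaurentSeries L} (hx : x ∈ tame L) (hx0 : x ≠ 0) :
    ∃ n, x.coeff n ≠ 0 ∧ ∀ m, x.coeff m / x.coeff n ∈ A := by
  classical
  obtain ⟨M, hM, hxM⟩ := hx
  set C : Submodule ℤ L := Submodule.span ℤ (Set.range x.coeff) with hC
  have hCM : C ≤ M := Submodule.span_le.mpr (by rintro _ ⟨n, rfl⟩; exact hxM n)
  have : Module.Finite ℤ M := Module.Finite.iff_fg.mpr hM
  have : IsNoetherian ℤ M := isNoetherian_of_isNoetherianRing_of_finite ℤ M
  have hCfg : C.FG := by
    have := IsNoetherian.noetherian (C.comap M.subtype)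
    have h2 := this.map M.subtype
    rwa [Submodule.map_comap_subtype, inf_eq_right.mpr hCM] at h2
  obtain ⟨s, hs, hsC⟩ := (Submodule.fg_span_iff_fg_span_finset_subset _).mp hCfg
  obtain ⟨k, hk⟩ : ∃ k, x.coeff k ≠ 0 := by
    by_contra h
    push Not at h
    exact hx0 (HahnSeries.ext (funext h))
  have hsne : s.Nonempty := by
    rw [Finset.nonempty_iff_ne_empty]
    rintro rfl
    have : x.coeff k ∈ Submodule.span ℤ (Set.range x.coeff) := Submodule.subset_span ⟨k, rfl⟩
    rw [hsC] at this
    simp at this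
    exact hk this
  obtain ⟨a, has, hamax⟩ := s.exists_max_image A.valuation hsne
  have key : ∀ m, A.valuation (x.coeff m) ≤ A.valuation a := by
    intro m
    have hm : x.coeff m ∈ Submodule.span ℤ (Set.range x.coeff) := Submodule.subset_span ⟨m, rfl⟩
    rw [hsC] at hm
    refine Submodule.span_induction (p := fun y _ => A.valuation y ≤ A.valuation a)
      ?_ ?_ ?_ ?_ hm
    · intro y hy; exact hamax y hy
    · simp
    · intro y z _ _ hy hz
      exact (A.valuation.map_add y z).trans (max_le hy hz)
    · intro n y _ hy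
      rw [zsmul_eq_mul, map_mul]
      have : A.valuation (n : L) ≤ 1 := (A.valuation_le_one_iff _).mpr (intCast_mem A n)
      exact (mul_le_mul' this hy).trans (by rw [one_mul])
  obtain ⟨n, rfl⟩ := hs has
  have hn0 : x.coeff n ≠ 0 := by
    intro h
    have := key k
    rw [h, map_zero, le_zero_iff, Valuation.zero_iff] at this
    exact hk this
  refine ⟨n, hn0, fun m => ?_⟩
  rw [← A.valuation_le_one_iff, map_div₀]
  have hpos : A.valuation (x.coeff n) ≠ 0 := (Valuation.ne_zero_iff _).mpr hn0
  exact div_le_one_of_le₀ (key m) zero_le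

/-- lift a series all whose coefficients are in `A`. -/
theorem exists_lift_of_coeff_mem {x : LaurentSeries L} (h : ∀ m, x.coeff m ∈ A) :
    ∃ P : LaurentSeries A, coeffMap A.subtype P = x := by
  refine ⟨⟨fun n => ⟨x.coeff n, h n⟩, ?_⟩, ?_⟩
  · refine x.isPWO_support.mono ?_
    intro n hn
    simp only [Function.mem_support, ne_eq] at hn
    rw [HahnSeries.mem_support]
    intro h0
    exact hn (Subtype.ext h0)
  · ext n
    rfl

variable {κ : Type*} [Field κ] (π : A →+* κ)

/-- normalisation of a tame series -/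
theorem exists_normalize {x : LaurentSeries L} (hx : x ∈ tame L) (hx0 : x ≠ 0) :
    ∃ c : L, c ≠ 0 ∧ ∃ P : LaurentSeries A, coeffMap π P ≠ 0 ∧
      algebraMap L (LaurentSeries L) c * coeffMap A.subtype P = x ∧
      ∃ n, P.coeff n = 1 := by
  obtain ⟨n, hn0, hn⟩ := exists_max_coeff A hx hx0
  obtain ⟨P, hP⟩ := exists_lift_of_coeff_mem A
    (x := algebraMap L (LaurentSeries L) (x.coeff n)⁻¹ * x) (fun m => by
    rw [coeff_algebraMap_mul, mul_comm, ← div_eq_mul_inv]; exact hn m)
  have h1 : P.coeff n = 1 := by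
    have h2 : ((P.coeff n : A) : L) = 1 := by
      have := congrArg (fun z => z.coeff n) hP
      simp only [coeffMap_coeff, coeff_algebraMap_mul] at this
      rw [inv_mul_cancel₀ hn0] at this
      exact this
    exact Subtype.ext h2
  refine ⟨x.coeff n, hn0, P, ?_, ?_, n, h1⟩
  · intro h
    have := congrArg (fun z => z.coeff n) h
    simp only [coeffMap_coeff, h1, map_one, HahnSeries.coeff_zero] at this
    exact one_ne_zero this
  · rw [hP, ← mul_assoc, ← map_mul, mul_inv_cancel₀ hn0, map_one, one_mul]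

end Tame

end Fermat.Agent.Igusa
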