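import Fermat.Agent.Igusa.Core

/-!
# Reductions of rational functions of `j`, lifts of elements of the modular function field
-/

set_option autoImplicit false

noncomputable section

open HahnSeries ModularCurve Module Polynomial

namespace Fermat.Agent.Igusa

section JEv

/-- evaluation of a polynomial at `j` -/
def jEv (R : Type*) [CommRing R] : R[X] →+* LaurentSeries R :=
  Polynomial.eval₂RingHom (HahnSeries.C : R →+* LaurentSeries R) (jqModC R)

theorem jEv_apply (R : Type*) [CommRing R] (P : R[X]) :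
    jEv R P = Polynomial.eval₂ (HahnSeries.C : R →+* LaurentSeries R) (jqModC R) P := rfl

theorem coeffMap_jEv {R S : Type*} [CommRing R] [CommRing S] (f : R →+* S) (P : R[X]) :
    coeffMap f (jEv R P) = jEv S (P.map f) := by
  rw [jEv_apply, jEv_apply, Polynomial.hom_eval₂, Polynomial.eval₂_map, coeffMap_jqModC]
  congr 1
  ext a
  simp [HahnSeries.C_apply]

theorem jEv_eq_aeval (K : Type*) [Field K] (P : K[X]) : jEv K P = aeval (jqModC K) P := by
  rw [jEv_apply, Polynomial.aeval_def]
  congr 1
  ext1 a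
  exact (algebraMap_laurentSeries_eq_single K a).symm

theorem jEv_monomial (R : Type*) [CommRing R] (n : ℕ) (a : R) :
    jEv R (Polynomial.monomial n a) = HahnSeries.single 0 a * jqModC R ^ n := by
  rw [jEv_apply, Polynomial.eval₂_monomial]; rfl

theorem coeff_jEv (R : Type*) [CommRing R] (P : R[X]) (m : ℤ) :
    (jEv R P).coeff m = ∑ i ∈ P.support, P.coeff i * (jqModC R ^ i).coeff m := by
  rw [jEv_apply, Polynomial.eval₂_eq_sum, Polynomial.sum]
  have e1 : ∀ s : Finset ℕ,
      (∑ j ∈ s, (HahnSeries.C (P.coeff j) : LaurentSeries R) * jqModC R ^ j).coeff m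
      = ∑ j ∈ s, P.coeff j * (jqModC R ^ j).coeff m := by
    intro s
    induction s using Finset.induction_on with
    | empty => simp
    | insert a s ha ih =>
      rw [Finset.sum_insert ha, Finset.sum_insert ha, HahnSeries.coeff_add, ih]
      congr 1
      have := HahnSeries.coeff_single_mul_add (r := P.coeff a) (x := jqModC R ^ a) (a := m)
        (b := (0 : ℤ))
      rwa [add_zero] at this
  exact e1 _

theorem coeff_jEv_natDegree (R : Type*) [CommRing R] (P : R[X]) :
    (jEv R P).coeff (-(P.natDegree : ℤ)) = P.leadingCoeff := by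
  rw [coeff_jEv, Finset.sum_eq_single P.natDegree]
  · rw [coeff_jqModC_pow_self, mul_one]; rfl
  · intro b hb hbn
    have hlt : b < P.natDegree := lt_of_le_of_ne (Polynomial.le_natDegree_of_mem_supp b hb) hbn
    rw [coeff_jqModC_pow_of_lt R (b := b) (by omega), mul_zero]
  · intro h
    rw [Polynomial.notMem_support_iff.mp h, zero_mul]

theorem jEv_injective (R : Type*) [CommRing R] : Function.Injective (jEv R) := by
  rw [injective_iff_map_eq_zero]
  intro P hP
  have h := coeff_jEv_natDegree R P
  rw [hP, HahnSeries.coeff_zero] at h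
  exact Polynomial.leadingCoeff_eq_zero.mp h.symm

theorem jEv_ne_zero (R : Type*) [CommRing R] {P : R[X]} (hP : P ≠ 0) : jEv R P ≠ 0 :=
  fun h => hP (jEv_injective R (h.trans (map_zero _).symm))

end JEv

variable {L : Type*} [Field L] (A : ValuationSubring L) {κ : Type*} [Field κ] (π : A →+* κ)

/-- scaling of a polynomial by a coefficient of maximal valuation -/
theorem exists_normalize_poly {p : L[X]} (hp : p ≠ 0) :
    ∃ c : L, c ≠ 0 ∧ ∃ P : A[X], p = Polynomial.C c * P.map A.subtype ∧ P.map π ≠ 0 := by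
  obtain ⟨i₀, hi₀, hmax⟩ := Finset.exists_max_image p.support (fun i => A.valuation (p.coeff i))
    (Polynomial.support_nonempty.mpr hp)
  have hne : p.coeff i₀ ≠ 0 := Polynomial.mem_support_iff.mp hi₀
  have hdiv : ∀ i, p.coeff i / p.coeff i₀ ∈ A := by
    intro i
    by_cases hi : i ∈ p.support
    · rw [← A.valuation_le_one_iff, map_div₀]
      exact div_le_one_of_le₀ (hmax i hi) zero_le
    · rw [Polynomial.notMem_support_iff.mp hi, zero_div]; exact A.zero_mem
  obtain ⟨P, hP⟩ : ∃ P : A[X], P.map A.subtype = Polynomial.C (p.coeff i₀)⁻¹ * p := by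
    have : Polynomial.C (p.coeff i₀)⁻¹ * p ∈ Polynomial.lifts A.subtype := by
      rw [Polynomial.lifts_iff_coeff_lifts]
      intro n
      refine ⟨⟨_, hdiv n⟩, ?_⟩
      rw [Polynomial.coeff_C_mul, mul_comm, ← div_eq_mul_inv]; rfl
    exact (Polynomial.mem_lifts _).mp this
  refine ⟨p.coeff i₀, hne, P, ?_, ?_⟩
  · rw [hP, ← mul_assoc, ← Polynomial.C_mul, mul_inv_cancel₀ hne, Polynomial.C_1, one_mul]
  · intro h0
    have h1 : P.coeff i₀ = 1 := by
      have h2 := congrArg (fun q => q.coeff i₀) hP
      simp only [Polynomial.coeff_map, Polynomial.coeff_C_mul] at h2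
      rw [inv_mul_cancel₀ hne] at h2
      exact Subtype.ext h2
    have h2 := congrArg (fun q => q.coeff i₀) h0
    simp only [Polynomial.coeff_map, h1, map_one, Polynomial.coeff_zero] at h2
    exact one_ne_zero h2

variable [IsLocalHom π]

/-- if `x Q = e P` with `x` in the Gauss ring and `P, Q` primitive, `e` is in `A`. -/
theorem mem_of_eq_mul {x : LaurentSeries L} (hx : x ∈ gaussRing A π) {P Q : LaurentSeries A}
    (hP : coeffMap π P ≠ 0) {e : L}
    (h : x * coeffMap A.subtype Q = algebraMap L (LaurentSeries L) e * coeffMap A.subtype P) :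
    e ∈ A := by
  -- `e = x Q / P`
  apply mem_of_algebraMap_mem_gaussRing (A := A) (π := π)
  have hPi : (coeffMap A.subtype P)⁻¹ ∈ gaussRing A π :=
    inv_mem_gaussRing (x := ⟨coeffMap A.subtype P, emb_mem_gaussRing P⟩)
      (by rw [gaussRes_emb]; exact hP)
  have hembP0 : coeffMap A.subtype P ≠ 0 := by
    intro h; apply hP; rw [emb_injective A (h.trans (map_zero _).symm), map_zero]
  have : algebraMap L (LaurentSeries L) e = x * coeffMap A.subtype Q * (coeffMap A.subtype P)⁻¹ := by
    rw [h, mul_assoc, mul_inv_cancel₀ hembP0, mul_one]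
  rw [this]
  exact mul_mem (mul_mem hx (emb_mem_gaussRing Q)) hPi

theorem gaussRes_mem_adjoin_j {x : gaussRing A π}
    (hx : (x : LaurentSeries L) ∈ IntermediateField.adjoin L {jqModC L}) :
    gaussRes A π x ∈ IntermediateField.adjoin κ {jqModC κ} := by
  obtain ⟨r, s, hrs⟩ := (IntermediateField.mem_adjoin_simple_iff L _).mp hx
  by_cases hr : r = 0
  · have : x = 0 := Subtype.ext (by rw [hrs, hr, map_zero, zero_div]; rfl)
    rw [this, map_zero]; exact zero_mem _
  by_cases hs : s = 0
  · have : x = 0 := Subtype.ext (by rw [hrs, hs, map_zero, div_zero]; rfl)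
    rw [this, map_zero]; exact zero_mem _
  obtain ⟨c, hc, P, rfl, hP⟩ := exists_normalize_poly A π hr
  obtain ⟨d, hd, Q, rfl, hQ⟩ := exists_normalize_poly A π hs
  rw [← jEv_eq_aeval, ← jEv_eq_aeval, map_mul, map_mul, ← coeffMap_jEv, ← coeffMap_jEv] at hrs
  have hCe : ∀ e : L, jEv L (Polynomial.C e) = algebraMap L (LaurentSeries L) e := fun e => by
    rw [jEv_eq_aeval, Polynomial.aeval_C]
  rw [hCe, hCe] at hrs
  have hP' : coeffMap π (jEv A P) ≠ 0 := by rw [coeffMap_jEv]; exact jEv_ne_zero κ hP
  have hQ' : coeffMap π (jEv A Q) ≠ 0 := by rw [coeffMap_jEv]; exact jEv_ne_zero κ hQ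
  have hembQ0 : coeffMap A.subtype (jEv A Q) ≠ 0 := by
    intro h; apply hQ'; rw [emb_injective A (h.trans (map_zero _).symm), map_zero]
  have hd' : algebraMap L (LaurentSeries L) d ≠ 0 := by
    rwa [ne_eq, map_eq_zero_iff _ (algebraMap L (LaurentSeries L)).injective]
  have hxe : (x : LaurentSeries L) * coeffMap A.subtype (jEv A Q)
      = algebraMap L (LaurentSeries L) (c / d) * coeffMap A.subtype (jEv A P) := by
    rw [hrs, map_div₀]
    field_simp
  have he : c / d ∈ A := mem_of_eq_mul A π x.2 hP' hxe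
  rw [gaussRes_eq (A := A) (π := π) x (P := HahnSeries.single 0 ⟨c / d, he⟩ * jEv A P) hQ'
    (by rw [map_mul, ← algebraMap_eq_emb]; exact hxe)]
  have hj : ∀ R : κ[X], jEv κ R ∈ IntermediateField.adjoin κ {jqModC κ} := fun R => by
    rw [jEv_eq_aeval]
    exact (IntermediateField.mem_adjoin_simple_iff κ _).mpr ⟨R, 1, by rw [map_one, div_one]⟩
  refine div_mem ?_ ?_
  · rw [map_mul, coeffMap_single, coeffMap_jEv, ← algebraMap_laurentSeries_eq_single]
    exact mul_mem (IntermediateField.algebraMap_mem _ _) (hj _)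
  · rw [coeffMap_jEv]; exact hj _

end Fermat.Agent.Igusa
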