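import Fermat.Agent.Igusa.GaussField

/-!
# Orthonormal bases of finite dimensional spaces of tame Laurent series
-/

set_option autoImplicit false

noncomputable section

open HahnSeries ModularCurve Module

namespace Fermat.Agent.Igusa

/-- use the algebra structure of `LaurentSeries K` for its module structure -/
@[reducible] def lsModule (K : Type*) [Field K] : Module K (LaurentSeries K) := Algebra.toModule

attribute [local instance 2000] lsModule

@[reducible] def lsSMul (K : Type*) [Field K] : SMul K (LaurentSeries K) := Algebra.toSMul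

attribute [local instance 2000] lsSMul

/-- The `m`-th coefficient as a linear functional. -/
def coeffLin (L : Type*) [Field L] (m : ℤ) : LaurentSeries L →ₗ[L] L where
  toFun x := x.coeff m
  map_add' x y := HahnSeries.coeff_add
  map_smul' c x := by
    rw [Algebra.smul_def, coeff_algebraMap_mul]; rfl

variable {L : Type*} [Field L] (A : ValuationSubring L) {κ : Type*} [Field κ] (π : A →+* κ)

@[simp] theorem coeffLin_apply (m : ℤ) (x : LaurentSeries L) : coeffLin L m x = x.coeff m := rfl

/-- A family `y` of integral series with pivots `m`: `coeff (m i) (y j) = δ i j`. -/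
def IsPivot {n : ℕ} (y : Fin n → LaurentSeries A) (m : Fin n → ℤ) : Prop :=
  ∀ i j, (y j).coeff (m i) = if i = j then 1 else 0

theorem exists_pivot (n : ℕ) : ∀ V : Submodule L (LaurentSeries L), FiniteDimensional L V →
    finrank L V = n → (∀ x ∈ V, x ∈ tame L) →
    ∃ (y : Fin n → LaurentSeries A) (m : Fin n → ℤ), IsPivot A y m ∧
      ∀ j, coeffMap A.subtype (y j) ∈ V := by
  induction n with
  | zero =>
    intro V _ _ _
    exact ⟨Fin.elim0, Fin.elim0, fun i => i.elim0, fun i => i.elim0⟩
  | succ n ih =>
    intro V hfin hn htame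
    have hpos : 0 < finrank L V := by omega
    obtain ⟨x, hx0⟩ : ∃ x : V, x ≠ 0 := by
      by_contra hcon
      push Not at hcon
      have : Subsingleton V := ⟨fun a b => (hcon a).trans (hcon b).symm⟩
      rw [finrank_zero_of_subsingleton] at hpos
      exact lt_irrefl _ hpos
    have hx0' : (x : LaurentSeries L) ≠ 0 := fun h => hx0 (Subtype.ext h)
    obtain ⟨c, hc0, P, -, hcP, m₀, hm₀⟩ := exists_normalize A A.subtype (htame x x.2) hx0'
    have hPV : coeffMap A.subtype P ∈ V := by
      have : coeffMap A.subtype P = c⁻¹ • (x : LaurentSeries L) := by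
        rw [← hcP, Algebra.smul_def, ← mul_assoc, ← map_mul, inv_mul_cancel₀ hc0, map_one,
        one_mul]
      rw [this]
      exact V.smul_mem _ x.2
    set V' : Submodule L (LaurentSeries L) := V ⊓ LinearMap.ker (coeffLin L m₀) with hV'
    have hV'le : V' ≤ V := inf_le_left
    have : FiniteDimensional L V' := Submodule.finiteDimensional_of_le hV'le
    -- dimension
    have hdim : finrank L V' = n := by
      set φ : V →ₗ[L] L := (coeffLin L m₀).comp V.subtype with hφ
      have hsurj : LinearMap.range φ = ⊤ := by
        rw [LinearMap.range_eq_top]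
        intro a
        refine ⟨a • ⟨coeffMap A.subtype P, hPV⟩, ?_⟩
        rw [map_smul]
        have : φ ⟨coeffMap A.subtype P, hPV⟩ = 1 := by
          show (coeffMap A.subtype P).coeff m₀ = 1
          rw [coeffMap_coeff, hm₀]; rfl
        rw [this, smul_eq_mul, mul_one]
      have h1 := φ.finrank_range_add_finrank_ker
      rw [hsurj, finrank_top, finrank_self, hn] at h1
      have h2 : (LinearMap.ker φ).map V.subtype = V' := by
        ext z
        simp only [Submodule.mem_map, LinearMap.mem_ker, Submodule.coe_subtype,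
          Subtype.exists, exists_and_right, exists_eq_right, hV', Submodule.mem_inf]
        constructor
        · rintro ⟨hz, h⟩; exact ⟨hz, h⟩
        · rintro ⟨hz, h⟩; exact ⟨hz, h⟩
      have h3 : finrank L V' = finrank L (LinearMap.ker φ) := by
        rw [← h2]
        exact (LinearEquiv.finrank_eq (Submodule.equivMapOfInjective V.subtype
          V.injective_subtype (LinearMap.ker φ))).symm
      omega
    obtain ⟨y, m, hpiv, hyV⟩ := ih V' inferInstance hdim (fun z hz => htame z (hV'le hz))
    have hy0 : ∀ j, (y j).coeff m₀ = 0 := by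
      intro j
      have h1 : coeffMap A.subtype (y j) ∈ LinearMap.ker (coeffLin L m₀) := (hyV j).2
      rw [LinearMap.mem_ker, coeffLin_apply, coeffMap_coeff] at h1
      exact Subtype.ext h1
    set P' : LaurentSeries A := P - ∑ j, HahnSeries.single 0 (P.coeff (m j)) * y j with hP'
    have hcoef : ∀ k, P'.coeff k = P.coeff k - ∑ j, P.coeff (m j) * (y j).coeff k := by
      intro k
      rw [hP', HahnSeries.coeff_sub]
      congr 1
      have e1 : ∀ s : Finset (Fin n),
          (∑ j ∈ s, HahnSeries.single 0 (P.coeff (m j)) * y j).coeff k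
        = ∑ j ∈ s, (HahnSeries.single 0 (P.coeff (m j)) * y j).coeff k := by
        intro s
        induction s using Finset.induction_on with
        | empty => simp
        | insert a s ha ih => rw [Finset.sum_insert ha, Finset.sum_insert ha,
            HahnSeries.coeff_add, ih]
      rw [e1]
      refine Finset.sum_congr rfl fun j _ => ?_
      have := HahnSeries.coeff_single_mul_add (r := P.coeff (m j)) (x := y j) (a := k) (b := 0)
      rwa [add_zero] at this
    refine ⟨Fin.cons P' y, Fin.cons m₀ m, ?_, ?_⟩
    · intro i j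
      refine Fin.cases ?_ (fun i => ?_) i
      · refine Fin.cases ?_ (fun j => ?_) j
        · simp only [Fin.cons_zero, if_true]
          rw [hcoef, hm₀]
          simp [hy0]
        · simp only [Fin.cons_zero, Fin.cons_succ]
          rw [hy0, if_neg (Fin.succ_ne_zero j).symm]
      · refine Fin.cases ?_ (fun j => ?_) j
        · simp only [Fin.cons_zero, Fin.cons_succ]
          rw [hcoef, if_neg (Fin.succ_ne_zero i)]
          have : ∑ j, P.coeff (m j) * (y j).coeff (m i) = P.coeff (m i) := by
            simp only [hpiv i]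
            simp
          rw [this, sub_self]
        · simp only [Fin.cons_succ, hpiv i j, Fin.succ_inj]
    · intro j
      refine Fin.cases ?_ (fun j => ?_) j
      · simp only [Fin.cons_zero]
        rw [hP', map_sub, map_sum]
        refine V.sub_mem hPV (V.sum_mem fun j _ => ?_)
        rw [map_mul, ← algebraMap_eq_emb, ← Algebra.smul_def]
        exact V.smul_mem _ (hV'le (hyV j))
      · simp only [Fin.cons_succ]
        exact hV'le (hyV j)

theorem IsPivot.linearIndependent {n : ℕ}
    {y : Fin n → LaurentSeries A} {m : Fin n → ℤ}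
    (h : IsPivot A y m) : LinearIndependent κ (fun j => coeffMap π (y j)) := by
  rw [Fintype.linearIndependent_iff]
  intro g hg i
  have h1 := congrArg (coeffLin κ (m i)) hg
  rw [map_sum, map_zero] at h1
  rw [← h1]
  have : ∀ j, coeffLin κ (m i) (g j • coeffMap π (y j)) = if i = j then g j else 0 := by
    intro j
    rw [map_smul, coeffLin_apply, coeffMap_coeff, h i j]
    split_ifs <;> simp
  simp [this]

section Frac

variable {F : IntermediateField L (LaurentSeries L)} (hF : IsTameField F)

/-- common denominator -/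
theorem exists_common_denom (hF : IsTameField F) {n : ℕ} (b : Fin n → F) :
    ∃ Q ∈ tame L, Q ≠ 0 ∧ ∀ i, (b i : LaurentSeries L) * Q ∈ tame L := by
  choose P hP Q hQ hQ0 hPQ using fun i => hF (b i) (b i).2
  refine ⟨∏ i, Q i, Subalgebra.prod_mem _ fun i _ => hQ i, Finset.prod_ne_zero_iff.mpr
    fun i _ => hQ0 i, fun i => ?_⟩
  rw [← Finset.mul_prod_erase Finset.univ Q (Finset.mem_univ i), ← mul_assoc, hPQ i]
  exact mul_mem (hP i) (Subalgebra.prod_mem _ fun i _ => hQ i)

theorem gaussValRes_eq (hF : IsTameField F) (x : gaussVal A π hF) {P Q : LaurentSeries A}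
    (hQ : coeffMap π Q ≠ 0)
    (hx : ((x : F) : LaurentSeries L) * coeffMap A.subtype Q = coeffMap A.subtype P) :
    gaussValRes A π hF x = coeffMap π P / coeffMap π Q :=
  gaussRes_eq (gaussValIncl A π hF x) hQ hx

theorem linearIndependent_mul_left {κ E : Type*} [Field κ] [CommRing E] [IsDomain E] [Algebra κ E]
    {a : E} (ha : a ≠ 0) {n : ℕ} {y : Fin n → E} (h : LinearIndependent κ y) :
    LinearIndependent κ (fun i => a * y i) :=
  h.map' (LinearMap.mulLeft κ a) (LinearMap.ker_eq_bot.mpr (mul_right_injective₀ ha))

theorem linearIndependent_of_res (hF : IsTameField F) {Q₀ : LaurentSeries A}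
    (hQ₀ : coeffMap π Q₀ ≠ 0) {n : ℕ} (y : Fin n → LaurentSeries A) (x : Fin n → F)
    (hxO : ∀ j, x j ∈ gaussVal A π hF)
    (hxy : ∀ j, (x j : LaurentSeries L) * coeffMap A.subtype Q₀ = coeffMap A.subtype (y j))
    (hli : LinearIndependent κ (fun j => coeffMap π (y j))) :
    LinearIndependent κ (fun i => gaussValRes A π hF ⟨x i, hxO i⟩) := by
  have hres : ∀ j, gaussValRes A π hF ⟨x j, hxO j⟩ = (coeffMap π Q₀)⁻¹ * coeffMap π (y j) :=
    fun j => (gaussValRes_eq A π hF ⟨x j, hxO j⟩ hQ₀ (hxy j)).trans (div_eq_inv_mul _ _)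
  have h2 : (fun i => gaussValRes A π hF ⟨x i, hxO i⟩)
      = fun i => (coeffMap π Q₀)⁻¹ * coeffMap π (y i) := funext hres
  rw [h2]
  exact linearIndependent_mul_left (inv_ne_zero hQ₀) hli

/-- **Orthonormal bases.** -/
theorem exists_orthonormal (hF : IsTameField F) (V : Submodule L F) [FiniteDimensional L V] :
    ∃ b : Fin (finrank L V) → gaussVal A π hF, (∀ i, ((b i : gaussVal A π hF) : F) ∈ V) ∧
      LinearIndependent κ (fun i => gaussValRes A π hF (b i)) := by
  classical
  set n := finrank L V with hn
  have : Module.Free L V := Module.Free.of_divisionRing L V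
  let e : Basis (Fin n) L V := Module.finBasis L V
  obtain ⟨Q, hQ, hQ0, hbQ⟩ := exists_common_denom hF (fun i => ((e i : V) : F))
  obtain ⟨c, hc0, Q₀, hQ₀, hcQ, -⟩ := exists_normalize A π hQ hQ0
  -- W = Q₀ V
  let μ : F →ₗ[L] LaurentSeries L :=
    { toFun := fun x => (x : LaurentSeries L) * coeffMap A.subtype Q₀
      map_add' := fun x y => by rw [IntermediateField.coe_add, add_mul]
      map_smul' := fun a x => by
        rw [IntermediateField.coe_smul, RingHom.id_apply, Algebra.smul_def, Algebra.smul_def,
          mul_assoc] }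
  have hμapp : ∀ x : F, μ x = (x : LaurentSeries L) * coeffMap A.subtype Q₀ := fun x => rfl
  have hembQ0 : coeffMap A.subtype Q₀ ≠ 0 := by
    intro h; apply hQ₀; rw [emb_injective A (h.trans (map_zero _).symm), map_zero]
  have hμinj : Function.Injective μ := by
    intro x y hxy
    rw [hμapp, hμapp] at hxy
    exact Subtype.ext (mul_right_cancel₀ hembQ0 hxy)
  have hW : ∀ z ∈ V.map μ, z ∈ tame L := by
    rintro _ ⟨x, hx, rfl⟩
    have hx' : (⟨x, hx⟩ : V) ∈ Submodule.span L (Set.range e) := by
      rw [e.span_eq]; exact Submodule.mem_top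
    have key : ∀ v : V, μ (v : F) ∈ tame L := by
      intro v
      have hv : v ∈ Submodule.span L (Set.range e) := by rw [e.span_eq]; exact Submodule.mem_top
      refine Submodule.span_induction (p := fun (v : V) _ => μ (v : F) ∈ tame L) ?_ ?_ ?_ ?_ hv
      · rintro _ ⟨i, rfl⟩
        rw [hμapp]
        have h1 : coeffMap A.subtype Q₀ = algebraMap L (LaurentSeries L) c⁻¹ * Q := by
          rw [← hcQ, ← mul_assoc, ← map_mul, inv_mul_cancel₀ hc0, map_one, one_mul]
        rw [h1, mul_left_comm]
        exact mul_mem (Subalgebra.algebraMap_mem _ _) (hbQ i)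
      · simp
      · intro u v _ _ hu hv
        rw [Submodule.coe_add, map_add]; exact add_mem hu hv
      · intro a v _ hv
        rw [Submodule.coe_smul, map_smul]; exact Subalgebra.smul_mem _ hv a
    exact key ⟨x, hx⟩
  have hfr : finrank L (V.map μ) = n := by
    rw [hn]
    exact (LinearEquiv.finrank_eq (Submodule.equivMapOfInjective μ hμinj V)).symm
  obtain ⟨y, m, hpiv, hyV⟩ := exists_pivot A n (V.map μ) inferInstance hfr hW
  choose x hxV hxy using fun j => (Submodule.mem_map.mp (hyV j))
  have hxO : ∀ j, x j ∈ gaussVal A π hF := fun j => by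
    rw [mem_gaussVal_iff]
    exact ⟨y j, Q₀, hQ₀, hxy j⟩
  refine ⟨fun j => ⟨x j, hxO j⟩, hxV, ?_⟩
  exact linearIndependent_of_res A π hF hQ₀ y x hxO hxy (IsPivot.linearIndependent A π hpiv)

end Frac

end Fermat.Agent.Igusa
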