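import Fermat.Agent.Igusa.Gauss

/-!
# Tensor products with a field: injectivity criterion
-/

set_option autoImplicit false

noncomputable section

open HahnSeries ModularCurve Module TensorProduct

namespace Fermat.Agent.Igusa

section Abs

variable {R κ K B E : Type*} [CommRing R] [Field κ] [Field K] [CommRing B] [CommRing E]
  [Algebra R K] [Algebra R B] (π : R →+* κ) (i : κ →+* K)

/-- the product map `B ⊗ K → E` -/
def prodMap (f : B →+* E) (g : K →+* E)
    (hfg : f.comp (algebraMap R B) = g.comp (algebraMap R K)) : B ⊗[R] K →+* E :=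
  letI : Algebra R E := (f.comp (algebraMap R B)).toAlgebra
  (Algebra.TensorProduct.lift (R := R) (S := R) (A := B) (B := K) (C := E)
    { f with commutes' := fun _ => rfl }
    { g with commutes' := fun r => (RingHom.congr_fun hfg r).symm }
    (fun _ _ => Commute.all _ _) : B ⊗[R] K →ₐ[R] E)

theorem prodMap_tmul (f : B →+* E) (g : K →+* E)
    (hfg : f.comp (algebraMap R B) = g.comp (algebraMap R K)) (b : B) (c : K) :
    prodMap f g hfg (b ⊗ₜ[R] c) = f b * g c := by
  let : Algebra R E := (f.comp (algebraMap R B)).toAlgebra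
  exact Algebra.TensorProduct.lift_tmul _ _ (fun _ _ => Commute.all _ _) b c

/-- every element of `B ⊗ K` is a combination of a `κ`-basis of `K`. -/
theorem exists_repr (hπ : Function.Surjective π) (hi : i.comp π = algebraMap R K)
    {ι : Type*} (e : ι → K)
    (he : ∀ c : K, ∃ f : ι →₀ κ, c = f.sum fun j a => i a * e j) (t : B ⊗[R] K) :
    ∃ b : ι →₀ B, t = b.sum fun j b => b ⊗ₜ[R] e j := by
  classical
  induction t using TensorProduct.induction_on with
  | zero => exact ⟨0, by simp⟩
  | tmul b c =>
    obtain ⟨f, hf⟩ := he c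
    choose r hr using hπ
    refine ⟨f.mapRange (fun a => if a = 0 then 0 else r a • b) (by simp), ?_⟩
    rw [Finsupp.sum_mapRange_index (by simp), hf, Finsupp.sum, TensorProduct.tmul_sum, Finsupp.sum]
    refine Finset.sum_congr rfl fun j hj => ?_
    have h0 : f j ≠ 0 := Finsupp.mem_support_iff.mp hj
    rw [if_neg h0, TensorProduct.smul_tmul]
    congr 1
    rw [Algebra.smul_def, ← hi, RingHom.comp_apply, hr]
  | add x y hx hy =>
    obtain ⟨b, hb⟩ := hx
    obtain ⟨b', hb'⟩ := hy
    refine ⟨b + b', ?_⟩
    rw [Finsupp.sum_add_index' (by simp) (by intro j x y; rw [TensorProduct.add_tmul]), ← hb, ← hb']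

theorem prodMap_injective (hπ : Function.Surjective π) (hi : i.comp π = algebraMap R K)
    {ι : Type*} (e : ι → K)
    (he : ∀ c : K, ∃ f : ι →₀ κ, c = f.sum fun j a => i a * e j)
    (f : B →+* E) (g : K →+* E)
    (hfg : f.comp (algebraMap R B) = g.comp (algebraMap R K))
    {ϖ : R} (hϖ : π ϖ = 0)
    (hker : ∀ b : ι →₀ B, (b.sum fun j b => f b * g (e j)) = 0 →
      ∀ j, ∃ b', b j = algebraMap R B ϖ * b') :
    Function.Injective (prodMap f g hfg) := by
  rw [injective_iff_map_eq_zero]
  intro t ht
  obtain ⟨b, rfl⟩ := exists_repr (B := B) π i hπ hi e he t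
  rw [Finsupp.sum, map_sum] at ht
  have h1 := hker b (by
    rw [← ht, Finsupp.sum]
    exact Finset.sum_congr rfl fun j _ => (prodMap_tmul f g hfg _ _).symm)
  refine Finset.sum_eq_zero fun j _ => ?_
  obtain ⟨b', hb'⟩ := h1 j
  have : ϖ • e j = 0 := by
    rw [Algebra.smul_def, ← hi, RingHom.comp_apply, hϖ, map_zero, zero_mul]
  show b j ⊗ₜ[R] e j = 0
  rw [hb', ← Algebra.smul_def, TensorProduct.smul_tmul, this, TensorProduct.tmul_zero]

end Abs

section Laurent

variable {R κ K B : Type*} [CommRing R] [Field κ] [Field K] [CommRing B]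
  [Algebra R K] [Algebra R B] (π : R →+* κ) (i : κ →+* K)

theorem coeff_finset_sum {ι : Type*} (s : Finset ι) (f : ι → LaurentSeries K) (n : ℤ) :
    (∑ j ∈ s, f j).coeff n = ∑ j ∈ s, (f j).coeff n := by
  classical
  induction s using Finset.induction_on with
  | empty => simp
  | insert a s ha ih => rw [Finset.sum_insert ha, Finset.sum_insert ha, HahnSeries.coeff_add, ih]

/-- `B ⊗ K` is a domain when `B / ϖ` embeds in `κ((q))`. -/
theorem isDomain_tensor (hπ : Function.Surjective π) (hi : i.comp π = algebraMap R K)
    (ρ : B →+* LaurentSeries κ) (hρ : ∀ r : R, ρ (algebraMap R B r) = HahnSeries.single 0 (π r))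
    {ϖ : R} (hϖ : π ϖ = 0)
    (hker : ∀ b : B, ρ b = 0 → ∃ b', b = algebraMap R B ϖ * b') :
    IsDomain (B ⊗[R] K) := by
  classical
  let : Algebra κ K := i.toAlgebra
  let e := Basis.ofVectorSpace κ K
  let f : B →+* LaurentSeries K := (coeffMap i).comp ρ
  let g : K →+* LaurentSeries K := HahnSeries.C
  have hfg : f.comp (algebraMap R B) = g.comp (algebraMap R K) := by
    ext1 r
    show coeffMap i (ρ (algebraMap R B r)) = HahnSeries.single 0 (algebraMap R K r)
    rw [hρ, coeffMap_single, ← hi]; rfl
  have hinj : Function.Injective (prodMap f g hfg) := by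
    refine prodMap_injective π i hπ hi (fun j => e j) (fun c => ⟨e.repr c, ?_⟩) f g hfg hϖ ?_
    · conv_lhs => rw [← e.linearCombination_repr c]
      rw [Finsupp.linearCombination_apply]
      rfl
    · intro b hb j
      apply hker
      ext n
      have h1 := congrArg (fun z : LaurentSeries K => z.coeff n) hb
      simp only [Finsupp.sum] at h1
      rw [coeff_finset_sum, HahnSeries.coeff_zero] at h1
      have h2 : ∀ j, (f (b j) * g (e j)).coeff n = (ρ (b j)).coeff n • e j := by
        intro j
        have := HahnSeries.coeff_single_mul_add (r := e j) (x := f (b j)) (a := n) (b := (0 : ℤ))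
        rw [add_zero] at this
        rw [mul_comm]
        refine this.trans ?_
        rw [mul_comm]
        rfl
      simp only [h2] at h1
      by_cases hj : j ∈ b.support
      · have h3 := linearIndependent_iff'.mp e.linearIndependent b.support
          (fun j => (ρ (b j)).coeff n) h1 j hj
        rw [h3, HahnSeries.coeff_zero]
      · rw [Finsupp.notMem_support_iff.mp hj, map_zero]
  exact Function.Injective.isDomain (prodMap f g hfg) hinj

end Laurent

end Fermat.Agent.Igusa
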