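import Fermat.Agent.Igusa.BarData
import Fermat.Agent.Igusa.ChartAbs
import Fermat.Agent.Igusa.TensorDom
import Fermat.Agent.ModPoly.BaseCase
import Fermat.Prelude.Def_ModularCurve_IgusaScheme

/-!
# Algebra for S28: charts of the Igusa scheme modulo `ℓ`
-/

set_option autoImplicit false

noncomputable section

open HahnSeries ModularCurve Module Polynomial TensorProduct

namespace Fermat.Agent.Igusa

section Integral

variable {L : Type*} [Field L] (A : ValuationSubring L) {κ : Type*} [Field κ] (π : A →+* κ)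
variable (N : ℕ) [IsLocalHom π] (hπ : Function.Surjective π)
  {d : ℕ} (hpos : 0 < d)
  (hd : IntermediateField.relfinrank (IntermediateField.adjoin L {jqModC L})
    (modularFunctionFieldFullC L N) = d)
  (hd₁ : IntermediateField.relfinrank (IntermediateField.adjoin κ {jqModC κ})
    (modularFunctionFieldFullC κ N) = d)
  {F : IntermediateField L (LaurentSeries L)} (hF : F = modularFunctionFieldFullC L N)

/-- the Gauss valuation ring is integral over its trace on `L(j)`. -/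
theorem fullData_integral {x : modularFunctionFieldFullC L N}
    (hx : x ∈ (fullData A π N hπ hpos hd hd₁).O) :
    IntOver (((fullData A π N hπ hpos hd hd₁).O.toSubring ⊓
      (baseSub (modularFunctionFieldFullC L N)
        (IntermediateField.adjoin L {jqModC L})).toSubring :
          Subring (modularFunctionFieldFullC L N)) : Set (modularFunctionFieldFullC L N)) x := by
  rw [← intOver_subring]
  obtain ⟨b, hb, -⟩ := exists_resIndep A π (isTameField_full (L := L) N)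
    (modularFunctionFieldFullC κ N) (IntermediateField.adjoin L {jqModC L})
    (IntermediateField.adjoin κ {jqModC κ})
    (fun x hx => gaussRes_mem_adjoin_j A π hx)
    (fun y hy => full_le_gaussImage A π hπ N hy) (adjoin_j_le_full κ N) hd₁ hpos
  have hfr : finrank (baseSub (modularFunctionFieldFullC L N)
      (IntermediateField.adjoin L {jqModC L})) (modularFunctionFieldFullC L N) = d := by
    rw [finrank_baseSub, hd]
  have : FiniteDimensional (baseSub (modularFunctionFieldFullC L N)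
      (IntermediateField.adjoin L {jqModC L})) (modularFunctionFieldFullC L N) :=
    FiniteDimensional.of_finrank_pos (by rw [hfr]; exact hpos)
  exact hb.isIntegral (resLocal_gaussVal A π (isTameField_full N)) (by rw [Fintype.card_fin, hfr]) hx

theorem fullDataOf_integral {x : F} (hx : x ∈ (fullDataOf A π N hπ hpos hd hd₁ hF).O) :
    IntOver (((fullDataOf A π N hπ hpos hd hd₁ hF).O.toSubring ⊓
      (baseSub F (IntermediateField.adjoin L {jqModC L})).toSubring : Subring F) : Set F) x := by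
  subst hF
  exact fullData_integral A π N hπ hpos hd hd₁ hx

end Integral

section Rat

variable (ℓ : ℕ) [hℓ : Fact ℓ.Prime]

/-- `ℤ_(ℓ)` as a valuation ring. -/
def vA : ValuationSubring ℚ :=
  { GaloisRep.ratLocalizedAt ℓ with
    mem_or_inv_mem' := by
      intro q
      show q.den.Coprime ℓ ∨ (q⁻¹).den.Coprime ℓ
      by_cases h : ℓ ∣ q.den
      · right
        have h1 : ¬ ℓ ∣ q.num.natAbs := by
          intro h2
          have h3 := Nat.dvd_gcd h2 h
          rw [q.reduced] at h3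
          exact hℓ.out.one_lt.ne' (Nat.dvd_one.mp h3)
        have h2 : ((q⁻¹).den : ℤ) ∣ q.num := by
          rw [Rat.inv_def]
          exact Rat.den_dvd _ _
        have h3 : (q⁻¹).den ∣ q.num.natAbs := Int.natCast_dvd.mp h2
        exact ((Nat.Prime.coprime_iff_not_dvd hℓ.out).mpr fun h4 => h1 (h4.trans h3)).symm
      · left
        exact ((Nat.Prime.coprime_iff_not_dvd hℓ.out).mpr h).symm }

theorem mem_vA {q : ℚ} : q ∈ vA ℓ ↔ q ∈ GaloisRep.ratLocalizedAt ℓ := Iff.rfl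

theorem den_ne_zero (q : vA ℓ) : (((q : ℚ).den : ℕ) : ZMod ℓ) ≠ 0 := by
  have h : (q : ℚ).den.Coprime ℓ := q.2
  rw [Ne, ZMod.natCast_eq_zero_iff]
  intro h1
  exact (Nat.Prime.coprime_iff_not_dvd hℓ.out).mp h.symm h1

/-- reduction modulo `ℓ` -/
def vπ : vA ℓ →+* ZMod ℓ where
  toFun q := ((q : ℚ) : ZMod ℓ)
  map_one' := Rat.cast_one
  map_zero' := Rat.cast_zero
  map_mul' x y := Rat.cast_mul_of_ne_zero (den_ne_zero ℓ x) (den_ne_zero ℓ y)
  map_add' x y := Rat.cast_add_of_ne_zero (den_ne_zero ℓ x) (den_ne_zero ℓ y)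

theorem vπ_apply (q : vA ℓ) : vπ ℓ q = ((q : ℚ) : ZMod ℓ) := rfl

theorem vπ_surjective : Function.Surjective (vπ ℓ) := by
  intro a
  obtain ⟨n, rfl⟩ := ZMod.intCast_surjective a
  exact ⟨n, map_intCast _ _⟩

theorem vπ_eq_zero {q : vA ℓ} (h : vπ ℓ q = 0) : (ℓ : ℤ) ∣ (q : ℚ).num := by
  rw [vπ_apply, Rat.cast_def, div_eq_zero_iff] at h
  rcases h with h | h
  · exact (ZMod.intCast_zmod_eq_zero_iff_dvd _ _).mp h
  · exact absurd h (den_ne_zero ℓ q)

theorem inv_mul_mem_vA {q : vA ℓ} (h : vπ ℓ q = 0) : (ℓ : ℚ)⁻¹ * (q : ℚ) ∈ vA ℓ := by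
  obtain ⟨m, hm⟩ := vπ_eq_zero ℓ h
  have hℓ0 : (ℓ : ℚ) ≠ 0 := Nat.cast_ne_zero.mpr hℓ.out.ne_zero
  have h1 : (ℓ : ℚ)⁻¹ * (q : ℚ) = (m : ℚ) / ((q : ℚ).den : ℚ) := by
    conv_lhs => rw [← Rat.num_div_den (q : ℚ)]
    rw [hm]
    push_cast
    field_simp
  rw [h1]
  have h2 : (((q : ℚ).den : ℚ))⁻¹ ∈ vA ℓ := by
    show ((((q : ℚ).den : ℕ) : ℚ)⁻¹).den.Coprime ℓ
    rw [Rat.inv_natCast_den_of_pos (q : ℚ).den_pos]
    exact q.2
  rw [div_eq_mul_inv]
  exact (vA ℓ).mul_mem _ _ (intCast_mem (vA ℓ) m) h2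

instance isLocalHom_vπ : IsLocalHom (vπ ℓ) := by
  constructor
  intro q hq
  by_contra hcon
  rw [isUnit_iff_valSub] at hcon
  have hℓ0 : (ℓ : ℚ) ≠ 0 := Nat.cast_ne_zero.mpr hℓ.out.ne_zero
  have hne : vπ ℓ q ≠ 0 := hq.ne_zero
  rcases hcon with h | h
  · apply hne
    have : q = 0 := Subtype.ext h
    rw [this, map_zero]
  · apply h
    show ((q : ℚ)⁻¹).den.Coprime ℓ
    have h2 : (((q : ℚ)⁻¹).den : ℤ) ∣ (q : ℚ).num := by
      rw [Rat.inv_def]
      exact Rat.den_dvd _ _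
    refine ((Nat.Prime.coprime_iff_not_dvd hℓ.out).mpr fun h4 => hne ?_).symm
    rw [vπ_apply, Rat.cast_def, div_eq_zero_iff]
    left
    rw [ZMod.intCast_zmod_eq_zero_iff_dvd]
    exact (Int.natCast_dvd_natCast.mpr h4).trans h2

end Rat

section DataGen

variable {L k F F₁ : Type*} [Field L] [Field k] [Field F] [Field F₁] [Algebra L F] [Algebra k F₁]
variable (𝔇 : Deuring.Data L k F F₁)

theorem data_inv {x : 𝔇.O} (hx : 𝔇.res x ≠ 0) :
    ∃ h : (x : F)⁻¹ ∈ 𝔇.O, 𝔇.res ⟨(x : F)⁻¹, h⟩ = (𝔇.res x)⁻¹ := by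
  have hu : IsUnit x := by
    by_contra hcon
    exact hx ((𝔇.res_ker x).mpr hcon)
  obtain ⟨y, hy⟩ := isUnit_iff_exists_inv.mp hu
  have hy' : (x : F) * y = 1 := congrArg Subtype.val hy
  have h1 : (x : F)⁻¹ ∈ 𝔇.O := by
    rw [inv_eq_of_mul_eq_one_right hy']; exact y.2
  refine ⟨h1, eq_inv_of_mul_eq_one_left ?_⟩
  rw [← map_mul, ← map_one 𝔇.res]
  exact congrArg 𝔇.res (Subtype.ext (inv_mul_cancel₀ (left_ne_zero_of_mul_eq_one hy')))

theorem transcendental_inv' {K E : Type*} [Field K] [Field E] [Algebra K E] {x : E}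
    (hx : Transcendental K x) : Transcendental K x⁻¹ := by
  intro h
  apply hx
  have := h.inv
  rwa [inv_inv] at this

end DataGen

section Chart

attribute [-instance] DivisionRing.toRatAlgebra SubfieldClass.instSMulRat

open ModularCurve.IgusaScheme

variable (N : ℕ) [NeZero N] (ℓ : ℕ) [hℓ : Fact ℓ.Prime] {d : ℕ} (hpos : 0 < d)
  (hd : IntermediateField.relfinrank (IntermediateField.adjoin ℚ {jqModC ℚ})
    (modularFunctionFieldFullC ℚ N) = d)
  (hd₁ : IntermediateField.relfinrank (IntermediateField.adjoin (ZMod ℓ) {jqModC (ZMod ℓ)})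
    (modularFunctionFieldFullC (ZMod ℓ) N) = d)

/-- the Deuring data over `ℤ_(ℓ)`. -/
@[reducible] def dat : Deuring.Data ℚ (ZMod ℓ) (modularFunctionFieldFull N)
    (modularFunctionFieldFullC (ZMod ℓ) N) :=
  fullData (L := ℚ) (vA ℓ) (vπ ℓ) N (vπ_surjective ℓ) hpos hd hd₁

theorem dat_A : (dat N ℓ hpos hd hd₁).A = vA ℓ := rfl

theorem jFull_res : ∃ h : jFull N ∈ (dat N ℓ hpos hd hd₁).O,
    (((dat N ℓ hpos hd hd₁).res ⟨jFull N, h⟩ : modularFunctionFieldFullC (ZMod ℓ) N) :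
      LaurentSeries (ZMod ℓ)) = jqModC (ZMod ℓ) := by
  have h1 : ((jFull N : modularFunctionFieldFullC ℚ N) : LaurentSeries ℚ)
      = coeffMap (vA ℓ).subtype (jqModC (vA ℓ)) := by
    rw [coeffMap_jqModC]; rfl
  have h2 := fullData_res_of_integral (vA ℓ) (vπ ℓ) N (vπ_surjective ℓ) hpos hd hd₁
    (x := (jFull N : modularFunctionFieldFullC ℚ N)) h1
  rw [coeffMap_jqModC] at h2
  exact h2

/-- `j` as an element of `O` -/
def zFin : (dat N ℓ hpos hd hd₁).O := ⟨jFull N, (jFull_res N ℓ hpos hd hd₁).choose⟩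

theorem transcendental_res_zFin :
    Transcendental (ZMod ℓ) ((dat N ℓ hpos hd hd₁).res (zFin N ℓ hpos hd hd₁)) := by
  intro h
  have h1 := h.algHom (modularFunctionFieldFullC (ZMod ℓ) N).val
  have h2 : (modularFunctionFieldFullC (ZMod ℓ) N).val
      ((dat N ℓ hpos hd hd₁).res (zFin N ℓ hpos hd hd₁)) = jqModC (ZMod ℓ) :=
    (jFull_res N ℓ hpos hd hd₁).choose_spec
  rw [h2] at h1
  exact ModPoly.transcendental_jqModC h1

theorem res_zFin_ne_zero :
    (dat N ℓ hpos hd hd₁).res (zFin N ℓ hpos hd hd₁) ≠ 0 :=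
  fun h0 => transcendental_res_zFin N ℓ hpos hd hd₁ (by rw [h0]; exact isAlgebraic_zero)

/-- `1/j` as an element of `O` -/
def zInf : (dat N ℓ hpos hd hd₁).O := ⟨(jFull N)⁻¹,
  (data_inv (dat N ℓ hpos hd hd₁) (x := zFin N ℓ hpos hd hd₁)
    (res_zFin_ne_zero N ℓ hpos hd hd₁)).choose⟩

theorem transcendental_res_zInf :
    Transcendental (ZMod ℓ) ((dat N ℓ hpos hd hd₁).res (zInf N ℓ hpos hd hd₁)) := by
  have h2 : (dat N ℓ hpos hd hd₁).res (zInf N ℓ hpos hd hd₁)
      = ((dat N ℓ hpos hd hd₁).res (zFin N ℓ hpos hd hd₁))⁻¹ :=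
    (data_inv (dat N ℓ hpos hd hd₁) (x := zFin N ℓ hpos hd hd₁)
    (res_zFin_ne_zero N ℓ hpos hd hd₁)).choose_spec
  rw [h2]
  exact transcendental_inv' (transcendental_res_zFin N ℓ hpos hd hd₁)

theorem ratHom_congr {E : Type*} [Ring E] (f g : ℚ →+* E) (x : ℚ) : f x = g x := by
  rw [RingHom.ext_rat f g]

instance towerR : IsScalarTower ↥(GaloisRep.ratLocalizedAt ℓ) ℚ (modularFunctionFieldFull N) :=
  IsScalarTower.of_algebraMap_eq fun r => by
    have h := ratHom_congr (@algebraMap ℚ (modularFunctionFieldFull N) _ _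
      DivisionRing.toRatAlgebra) (algebraMap ℚ (modularFunctionFieldFull N))
      (algebraMap ↥(GaloisRep.ratLocalizedAt ℓ) ℚ r)
    exact h

theorem hR (a : ℚ) : a ∈ (dat N ℓ hpos hd hd₁).A ↔
    ∃ r : ↥(GaloisRep.ratLocalizedAt ℓ), algebraMap ↥(GaloisRep.ratLocalizedAt ℓ) ℚ r = a :=
  ⟨fun h => ⟨⟨a, h⟩, rfl⟩, by rintro ⟨r, rfl⟩; exact r.2⟩

theorem chart_le_O {S : Set (modularFunctionFieldFull N)}
    (hS : ∀ s ∈ S, s ∈ (dat N ℓ hpos hd hd₁).O) {x : modularFunctionFieldFull N}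
    (hx : x ∈ chartAlg N ℓ S) : x ∈ (dat N ℓ hpos hd hd₁).O := by
  rw [mem_chartAlg_iff, intOver_subalgebra] at hx
  refine mem_of_intOver_valuationSubring _ (hx.mono fun y hy => ?_)
  have hy' : y ∈ Algebra.adjoin ↥(GaloisRep.ratLocalizedAt ℓ) S := hy
  clear hy
  induction hy' using Algebra.adjoin_induction with
  | mem y hy => exact hS y hy
  | algebraMap r =>
    have h1 := IsScalarTower.algebraMap_apply ↥(GaloisRep.ratLocalizedAt ℓ) ℚ
      (modularFunctionFieldFull N) r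
    have h2 : algebraMap ℚ (modularFunctionFieldFull N)
      (algebraMap ↥(GaloisRep.ratLocalizedAt ℓ) ℚ r) ∈ (dat N ℓ hpos hd hd₁).O := by
      rw [(dat N ℓ hpos hd hd₁).mem_iff, hR]; exact ⟨r, rfl⟩
    rw [← h1] at h2
    exact h2
  | add y z _ _ hy hz => exact (dat N ℓ hpos hd hd₁).O.add_mem _ _ hy hz
  | mul y z _ _ hy hz => exact (dat N ℓ hpos hd hd₁).O.mul_mem _ _ hy hz

/-- reduction of elements of a chart -/
def chartRed {S : Set (modularFunctionFieldFull N)}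
    (hS : ∀ s ∈ S, s ∈ (dat N ℓ hpos hd hd₁).O) : chartAlg N ℓ S →+* LaurentSeries (ZMod ℓ) :=
  ((algebraMap (modularFunctionFieldFullC (ZMod ℓ) N) (LaurentSeries (ZMod ℓ))).comp
    (dat N ℓ hpos hd hd₁).res).comp
    (RingHom.codRestrict (algebraMap (chartAlg N ℓ S) (modularFunctionFieldFull N))
      (dat N ℓ hpos hd hd₁).O (fun x => chart_le_O N ℓ hpos hd hd₁ hS x.2))

end Chart

end Fermat.Agent.Igusa
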