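import Fermat.Agent.Igusa.S28Alg

/-!
# S28: the charts modulo `ℓ` are domains
-/

set_option autoImplicit false

noncomputable section

open HahnSeries ModularCurve Module Polynomial TensorProduct

namespace Fermat.Agent.Igusa

attribute [-instance] DivisionRing.toRatAlgebra SubfieldClass.instSMulRat

open ModularCurve.IgusaScheme

section Base

variable (N : ℕ) [NeZero N]

theorem mem_base_iff (c : modularFunctionFieldFull N) :
    c ∈ baseSub (modularFunctionFieldFull N) (IntermediateField.adjoin ℚ {jqModC ℚ}) ↔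
      c ∈ IntermediateField.adjoin ℚ {jFull N} := by
  rw [mem_baseSub]
  have h : (IntermediateField.adjoin ℚ {jFull N}).map (modularFunctionFieldFull N).val
      = IntermediateField.adjoin ℚ {jqModC ℚ} := by
    rw [IntermediateField.adjoin_map, Set.image_singleton]
    rfl
  rw [← h]
  constructor
  · rintro ⟨y, hy, hyc⟩
    have : y = c := Subtype.ext hyc
    rw [← this]; exact hy
  · intro hc; exact ⟨c, hc, rfl⟩

theorem adjoin_inv_eq {K E : Type*} [Field K] [Field E] [Algebra K E] (x : E) :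
    IntermediateField.adjoin K {x⁻¹} = IntermediateField.adjoin K {x} := by
  apply le_antisymm
  · rw [IntermediateField.adjoin_le_iff, Set.singleton_subset_iff]
    exact inv_mem (IntermediateField.mem_adjoin_simple_self K x)
  · rw [IntermediateField.adjoin_le_iff, Set.singleton_subset_iff]
    have := inv_mem (IntermediateField.mem_adjoin_simple_self K x⁻¹)
    rwa [inv_inv] at this

theorem transcendental_jFull : Transcendental ℚ (jFull N) := by
  intro h
  have h1 := h.algHom (modularFunctionFieldFull N).val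
  exact ModPoly.transcendental_jqModC h1

end Base

variable (N : ℕ) [NeZero N] (ℓ : ℕ) [hℓ : Fact ℓ.Prime] {d : ℕ} (hpos : 0 < d)
  (hd : IntermediateField.relfinrank (IntermediateField.adjoin ℚ {jqModC ℚ})
    (modularFunctionFieldFullC ℚ N) = d)
  (hd₁ : IntermediateField.relfinrank (IntermediateField.adjoin (ZMod ℓ) {jqModC (ZMod ℓ)})
    (modularFunctionFieldFullC (ZMod ℓ) N) = d)

/-- the kernel of reduction on a chart. -/
theorem exists_eq_mul {z : (dat N ℓ hpos hd hd₁).O}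
    (htr : Transcendental (ZMod ℓ) ((dat N ℓ hpos hd hd₁).res z))
    (htr₀ : Transcendental ℚ (z : modularFunctionFieldFull N))
    (hF₀ : ∀ c : modularFunctionFieldFull N,
      c ∈ baseSub (modularFunctionFieldFull N) (IntermediateField.adjoin ℚ {jqModC ℚ}) ↔
      c ∈ IntermediateField.adjoin ℚ {(z : modularFunctionFieldFull N)})
    (hS : ∀ s ∈ ({(z : modularFunctionFieldFull N)} : Set (modularFunctionFieldFull N)),
      s ∈ (dat N ℓ hpos hd hd₁).O)
    (b : chartAlg N ℓ {(z : modularFunctionFieldFull N)})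
    (hb : chartRed N ℓ hpos hd hd₁ hS b = 0) :
    ∃ b', b = algebraMap ↥(GaloisRep.ratLocalizedAt ℓ) _ (ℓ : ↥(GaloisRep.ratLocalizedAt ℓ)) * b' := by
  have hℓ0 : (ℓ : ℚ) ≠ 0 := Nat.cast_ne_zero.mpr hℓ.out.ne_zero
  have hb1 : IntOver (Algebra.adjoin ↥(GaloisRep.ratLocalizedAt ℓ)
      {(z : modularFunctionFieldFull N)} : Set (modularFunctionFieldFull N)) b := by
    rw [← intOver_subalgebra]
    exact b.2
  have hres : (dat N ℓ hpos hd hd₁).res ⟨b, mem_O_of_intOver (dat N ℓ hpos hd hd₁)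
      (hR N ℓ hpos hd hd₁) hb1⟩ = 0 := by
    apply Subtype.ext
    exact hb
  have key := intOver_div (dat N ℓ hpos hd hd₁) htr (hR N ℓ hpos hd hd₁)
    (F₀ := baseSub (modularFunctionFieldFull N) (IntermediateField.adjoin ℚ {jqModC ℚ})) hF₀
    (fun c hc hci => ModPoly.mem_adjoin_of_isIntegral htr₀ ((hF₀ c).mp hc)
      (intOver_subalgebra.mpr hci))
    (fun x hx => fullData_integral (L := ℚ) (vA ℓ) (vπ ℓ) N (vπ_surjective ℓ) hpos hd hd₁ hx)
    (ϖ := (ℓ : ℚ)) (fun a ha => inv_mul_mem_vA ℓ ha) hb1 hres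
  refine ⟨⟨algebraMap ℚ (modularFunctionFieldFull N) (ℓ : ℚ)⁻¹ * b, ?_⟩, ?_⟩
  · rw [mem_chartAlg_iff, intOver_subalgebra]
    exact key
  · apply Subtype.ext
    rw [Subalgebra.coe_mul, Subalgebra.coe_algebraMap, map_natCast]
    show (b : modularFunctionFieldFull N) = (ℓ : modularFunctionFieldFull N) *
      (algebraMap ℚ (modularFunctionFieldFull N) (ℓ : ℚ)⁻¹ * b)
    rw [← map_natCast (algebraMap ℚ (modularFunctionFieldFull N)) ℓ, ← mul_assoc, ← map_mul,
      mul_inv_cancel₀ hℓ0, map_one, one_mul]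

/-- reduction `ℤ_(ℓ) → ZMod ℓ` -/
def vπR : ↥(GaloisRep.ratLocalizedAt ℓ) →+* ZMod ℓ where
  toFun r := vπ ℓ ⟨r.1, r.2⟩
  map_one' := map_one (vπ ℓ)
  map_zero' := map_zero (vπ ℓ)
  map_mul' x y := map_mul (vπ ℓ) ⟨x.1, x.2⟩ ⟨y.1, y.2⟩
  map_add' x y := map_add (vπ ℓ) ⟨x.1, x.2⟩ ⟨y.1, y.2⟩

theorem vπR_surjective : Function.Surjective (vπR ℓ) := by
  intro a
  obtain ⟨q, hq⟩ := vπ_surjective ℓ a
  exact ⟨⟨q.1, q.2⟩, hq⟩

theorem vπR_natCast : vπR ℓ (ℓ : ↥(GaloisRep.ratLocalizedAt ℓ)) = 0 := by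
  rw [map_natCast, ZMod.natCast_self]

theorem castHom_comp_vπR (K : Type*) [Field K] [CharP K ℓ]
    [Algebra ↥(GaloisRep.ratLocalizedAt ℓ) K] :
    (ZMod.castHom (dvd_refl ℓ) K).comp (vπR ℓ)
      = algebraMap ↥(GaloisRep.ratLocalizedAt ℓ) K := by
  ext1 r
  set i := ZMod.castHom (dvd_refl ℓ) K
  have hden : (((r : ℚ).den : ℕ) : ZMod ℓ) ≠ 0 := den_ne_zero ℓ ⟨r.1, r.2⟩
  have hdenK : (((r : ℚ).den : ℕ) : K) ≠ 0 := by
    have := (map_ne_zero i).mpr hden
    rwa [map_natCast] at this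
  have h1 : ((((r : ℚ).den : ℕ) : ↥(GaloisRep.ratLocalizedAt ℓ))) * r
      = (((r : ℚ).num : ℤ) : ↥(GaloisRep.ratLocalizedAt ℓ)) := by
    apply Subtype.ext
    push_cast
    exact Rat.den_mul_eq_num _
  have h2 := congrArg (algebraMap ↥(GaloisRep.ratLocalizedAt ℓ) K) h1
  have h3 := congrArg (i.comp (vπR ℓ)) h1
  rw [map_mul, map_natCast, map_intCast] at h2 h3
  exact mul_left_cancel₀ hdenK (h3.trans h2.symm)

section Dom

variable {S : Set (modularFunctionFieldFull N)}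
    (hS : ∀ s ∈ S, s ∈ (dat N ℓ hpos hd hd₁).O)

theorem chartRed_algebraMap (r : ↥(GaloisRep.ratLocalizedAt ℓ)) :
    chartRed N ℓ hpos hd hd₁ hS (algebraMap _ _ r) = HahnSeries.single 0 (vπR ℓ r) := by
  have h1 := (dat N ℓ hpos hd hd₁).res_algebraMap ⟨r.1, r.2⟩
  have h2 : chartRed N ℓ hpos hd hd₁ hS (algebraMap _ _ r)
      = ((dat N ℓ hpos hd hd₁).res ⟨algebraMap ℚ (modularFunctionFieldFull N) (r : ℚ),
        ((dat N ℓ hpos hd hd₁).mem_iff (r : ℚ)).mpr r.2⟩ :
          modularFunctionFieldFullC (ZMod ℓ) N) := by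
    unfold chartRed
    rw [RingHom.comp_apply, RingHom.comp_apply]
    show (((dat N ℓ hpos hd hd₁).res _ : modularFunctionFieldFullC (ZMod ℓ) N) :
      LaurentSeries (ZMod ℓ)) = _
    congr 2
    apply Subtype.ext
    exact IsScalarTower.algebraMap_apply ↥(GaloisRep.ratLocalizedAt ℓ) ℚ
      (modularFunctionFieldFull N) r
  rw [h2, h1]
  exact algebraMap_laurentSeries_eq_single _ _

include hS in
theorem nontrivial_chart_tensor (K : Type*) [Field K] [CharP K ℓ]
    [Algebra ↥(GaloisRep.ratLocalizedAt ℓ) K] :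
    Nontrivial ((chartAlg N ℓ S) ⊗[↥(GaloisRep.ratLocalizedAt ℓ)] K) := by
  let i := ZMod.castHom (dvd_refl ℓ) K
  refine (prodMap ((coeffMap i).comp (chartRed N ℓ hpos hd hd₁ hS))
    (HahnSeries.C : K →+* LaurentSeries K) ?_).domain_nontrivial
  ext1 r
  show coeffMap i (chartRed N ℓ hpos hd hd₁ hS (algebraMap _ _ r))
    = HahnSeries.single 0 (algebraMap _ K r)
  rw [chartRed_algebraMap, coeffMap_single, ← castHom_comp_vπR ℓ K]
  rfl

end Dom

theorem isDomain_chart {z : (dat N ℓ hpos hd hd₁).O}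
    (htr : Transcendental (ZMod ℓ) ((dat N ℓ hpos hd hd₁).res z))
    (htr₀ : Transcendental ℚ (z : modularFunctionFieldFull N))
    (hF₀ : ∀ c : modularFunctionFieldFull N,
      c ∈ baseSub (modularFunctionFieldFull N) (IntermediateField.adjoin ℚ {jqModC ℚ}) ↔
      c ∈ IntermediateField.adjoin ℚ {(z : modularFunctionFieldFull N)})
    (K : Type*) [Field K] [CharP K ℓ] [Algebra ↥(GaloisRep.ratLocalizedAt ℓ) K] :
    IsDomain ((chartAlg N ℓ {(z : modularFunctionFieldFull N)})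
      ⊗[↥(GaloisRep.ratLocalizedAt ℓ)] K) := by
  have hS : ∀ s ∈ ({(z : modularFunctionFieldFull N)} : Set (modularFunctionFieldFull N)),
      s ∈ (dat N ℓ hpos hd hd₁).O := by
    intro s hs
    rw [Set.mem_singleton_iff.mp hs]; exact z.2
  exact isDomain_tensor (vπR ℓ) (ZMod.castHom (dvd_refl ℓ) K) (vπR_surjective ℓ)
    (castHom_comp_vπR ℓ K) (chartRed N ℓ hpos hd hd₁ hS)
    (chartRed_algebraMap N ℓ hpos hd hd₁ hS) (vπR_natCast ℓ)
    (fun b hb => exists_eq_mul N ℓ hpos hd hd₁ htr htr₀ hF₀ hS b hb)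

include hpos hd hd₁

theorem isDomain_chartFin (K : Type*) [Field K] [CharP K ℓ]
    [Algebra ↥(GaloisRep.ratLocalizedAt ℓ) K] :
    IsDomain ((chartAlgFin N ℓ) ⊗[↥(GaloisRep.ratLocalizedAt ℓ)] K) :=
  isDomain_chart N ℓ hpos hd hd₁ (z := zFin N ℓ hpos hd hd₁)
    (transcendental_res_zFin N ℓ hpos hd hd₁) (transcendental_jFull N) (mem_base_iff N) K

theorem isDomain_chartInf (K : Type*) [Field K] [CharP K ℓ]
    [Algebra ↥(GaloisRep.ratLocalizedAt ℓ) K] :
    IsDomain ((chartAlgInf N ℓ) ⊗[↥(GaloisRep.ratLocalizedAt ℓ)] K) :=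
  isDomain_chart N ℓ hpos hd hd₁ (z := zInf N ℓ hpos hd hd₁)
    (transcendental_res_zInf N ℓ hpos hd hd₁) (transcendental_inv' (transcendental_jFull N))
    (fun c => by
      rw [mem_base_iff]
      show _ ↔ c ∈ IntermediateField.adjoin ℚ {(jFull N)⁻¹}
      rw [adjoin_inv_eq]) K

theorem nontrivial_chartMid (K : Type*) [Field K] [CharP K ℓ]
    [Algebra ↥(GaloisRep.ratLocalizedAt ℓ) K] :
    Nontrivial ((chartAlgMid N ℓ) ⊗[↥(GaloisRep.ratLocalizedAt ℓ)] K) :=
  nontrivial_chart_tensor N ℓ hpos hd hd₁ (S := {jFull N, (jFull N)⁻¹}) (by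
    rintro s (rfl | hs)
    · exact (zFin N ℓ hpos hd hd₁).2
    · rw [Set.mem_singleton_iff.mp hs]; exact (zInf N ℓ hpos hd hd₁).2) K

end Fermat.Agent.Igusa
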