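import Mathlib
import Fermat.Prelude.Def_ModularCurve_IgusaScheme

/-!
# S28: gluing two integral affine charts
-/

set_option autoImplicit false

noncomputable section

open AlgebraicGeometry CategoryTheory CategoryTheory.Limits ModularCurve ModularCurve.IgusaScheme
open TensorProduct

universe u

namespace Fermat.Agent.Igusa

theorem isIntegral_of_two {X U V : Scheme.{u}} (f : U ⟶ X) (g : V ⟶ X)
    [IsOpenImmersion f] [IsOpenImmersion g] [AlgebraicGeometry.IsIntegral U]
    [AlgebraicGeometry.IsIntegral V]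
    (hcov : ∀ x : X, x ∈ Set.range f ∨ x ∈ Set.range g)
    (hne : ∃ x, x ∈ Set.range f ∧ x ∈ Set.range g) : AlgebraicGeometry.IsIntegral X := by
  have hstalk : ∀ x : X, _root_.IsReduced (X.presheaf.stalk x) := by
    intro x
    rcases hcov x with ⟨y, rfl⟩ | ⟨y, rfl⟩
    · exact isReduced_of_injective (f.stalkMap y).hom
        (ConcreteCategory.bijective_of_isIso (f.stalkMap y)).injective
    · exact isReduced_of_injective (g.stalkMap y).hom
        (ConcreteCategory.bijective_of_isIso (g.stalkMap y)).injective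
  have hred : AlgebraicGeometry.IsReduced X := isReduced_of_isReduced_stalk X
  have hf : IsIrreducible (Set.range f) := by
    rw [← Set.image_univ]
    exact (IrreducibleSpace.isIrreducible_univ U).image f f.continuous.continuousOn
  have hg : IsIrreducible (Set.range g) := by
    rw [← Set.image_univ]
    exact (IrreducibleSpace.isIrreducible_univ V).image g g.continuous.continuousOn
  have hfo : IsOpen (Set.range f) := f.isOpenEmbedding.isOpen_range
  have h1 : Set.range g ⊆ closure (Set.range g ∩ Set.range f) := by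
    refine subset_closure_inter_of_isPreirreducible_of_isOpen hg.isPreirreducible hfo ?_
    obtain ⟨x, hx1, hx2⟩ := hne
    exact ⟨x, hx2, hx1⟩
  have h2 : closure (Set.range f) = Set.univ := by
    refine Set.eq_univ_of_forall fun x => ?_
    rcases hcov x with hx | hx
    · exact subset_closure hx
    · exact closure_mono Set.inter_subset_right (h1 hx)
  have h3 : IsIrreducible (Set.univ : Set X) := by
    rw [← h2]; exact hf.closure
  have : IrreducibleSpace X := by
    have : PreirreducibleSpace X := ⟨h3.isPreirreducible⟩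
    exact ⟨⟨h3.nonempty.some⟩⟩
  exact isIntegral_of_irreducibleSpace_of_isReduced X

section Igusa

variable (N : ℕ) [NeZero N] (ℓ : ℕ) [Fact ℓ.Prime]
    (K : Type) [Field K] [Algebra ↥(GaloisRep.ratLocalizedAt ℓ) K]

/-- the map `Spec K → Spec ℤ_(ℓ)`. -/
abbrev sK : Spec (CommRingCat.of K) ⟶ Spec (CommRingCat.of ↥(GaloisRep.ratLocalizedAt ℓ)) :=
  Spec.map (CommRingCat.ofHom (algebraMap ↥(GaloisRep.ratLocalizedAt ℓ) K))

variable (hFin : IsDomain ((chartAlgFin N ℓ) ⊗[↥(GaloisRep.ratLocalizedAt ℓ)] K))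
  (hInf : IsDomain ((chartAlgInf N ℓ) ⊗[↥(GaloisRep.ratLocalizedAt ℓ)] K))
  (hMid : Nontrivial ((chartAlgMid N ℓ) ⊗[↥(GaloisRep.ratLocalizedAt ℓ)] K))

include hFin in
theorem isIntegral_pullback_fin : AlgebraicGeometry.IsIntegral
    (pullback (ιFin N ℓ) (pullback.fst (igusaTo N ℓ) (sK ℓ K))) := by
  have h1 : AlgebraicGeometry.IsIntegral
      (Spec (CommRingCat.of ((chartAlgFin N ℓ) ⊗[↥(GaloisRep.ratLocalizedAt ℓ)] K))) := by
    have : IsDomain (CommRingCat.of ((chartAlgFin N ℓ) ⊗[↥(GaloisRep.ratLocalizedAt ℓ)] K)) := hFin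
    infer_instance
  let e1 := pullbackRightPullbackFstIso (igusaTo N ℓ) (sK ℓ K) (ιFin N ℓ)
  let e2 : pullback (ιFin N ℓ ≫ igusaTo N ℓ) (sK ℓ K) ≅
      pullback (Spec.map (CommRingCat.ofHom
        (algebraMap ↥(GaloisRep.ratLocalizedAt ℓ) (chartAlgFin N ℓ)))) (sK ℓ K) :=
    pullback.congrHom (ιFin_igusaTo N ℓ) rfl
  let e3 := pullbackSpecIso ↥(GaloisRep.ratLocalizedAt ℓ) (chartAlgFin N ℓ) K
  exact IsIntegral.of_isIso (e1 ≪≫ e2 ≪≫ e3).inv

include hInf in
theorem isIntegral_pullback_inf : AlgebraicGeometry.IsIntegral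
    (pullback (ιInf N ℓ) (pullback.fst (igusaTo N ℓ) (sK ℓ K))) := by
  have h1 : AlgebraicGeometry.IsIntegral
      (Spec (CommRingCat.of ((chartAlgInf N ℓ) ⊗[↥(GaloisRep.ratLocalizedAt ℓ)] K))) := by
    have : IsDomain (CommRingCat.of ((chartAlgInf N ℓ) ⊗[↥(GaloisRep.ratLocalizedAt ℓ)] K)) := hInf
    infer_instance
  let e1 := pullbackRightPullbackFstIso (igusaTo N ℓ) (sK ℓ K) (ιInf N ℓ)
  let e2 : pullback (ιInf N ℓ ≫ igusaTo N ℓ) (sK ℓ K) ≅
      pullback (Spec.map (CommRingCat.ofHom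
        (algebraMap ↥(GaloisRep.ratLocalizedAt ℓ) (chartAlgInf N ℓ)))) (sK ℓ K) :=
    pullback.congrHom (ιInf_igusaTo N ℓ) rfl
  let e3 := pullbackSpecIso ↥(GaloisRep.ratLocalizedAt ℓ) (chartAlgInf N ℓ) K
  exact IsIntegral.of_isIso (e1 ≪≫ e2 ≪≫ e3).inv

include hFin hInf hMid in
theorem isIntegral_igusa_pullback :
    AlgebraicGeometry.IsIntegral (pullback (igusaTo N ℓ) (sK ℓ K)) := by
  have := isIntegral_pullback_fin N ℓ K hFin
  have := isIntegral_pullback_inf N ℓ K hInf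
  refine isIntegral_of_two
    (pullback.snd (ιFin N ℓ) (pullback.fst (igusaTo N ℓ) (sK ℓ K)))
    (pullback.snd (ιInf N ℓ) (pullback.fst (igusaTo N ℓ) (sK ℓ K))) ?_ ?_
  · intro x
    rw [IsOpenImmersion.range_pullbackSnd, IsOpenImmersion.range_pullbackSnd]
    exact mem_range_ιFin_or_mem_range_ιInf N ℓ _
  · rw [IsOpenImmersion.range_pullbackSnd, IsOpenImmersion.range_pullbackSnd]
    -- a point of the intersection
    let M := CommRingCat.of ((chartAlgMid N ℓ) ⊗[↥(GaloisRep.ratLocalizedAt ℓ)] K)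
    have hM : Nontrivial M := hMid
    obtain ⟨w⟩ : Nonempty (Spec M) := inferInstance
    obtain ⟨a, b, hab⟩ : ∃ (a : Spec M ⟶ XMid N ℓ) (b : Spec M ⟶ Spec (CommRingCat.of K)),
        a ≫ Spec.map (CommRingCat.ofHom
        (algebraMap ↥(GaloisRep.ratLocalizedAt ℓ) (chartAlgMid N ℓ))) = b ≫ sK ℓ K :=
      ⟨(pullbackSpecIso ↥(GaloisRep.ratLocalizedAt ℓ) (chartAlgMid N ℓ) K).inv ≫ pullback.fst _ _,
        (pullbackSpecIso ↥(GaloisRep.ratLocalizedAt ℓ) (chartAlgMid N ℓ) K).inv ≫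
          pullback.snd _ _, by simp only [Category.assoc, pullback.condition]⟩
    have hcond : (a ≫ fFin N ℓ ≫ ιFin N ℓ) ≫ igusaTo N ℓ = b ≫ sK ℓ K := by
      rw [← hab, Category.assoc, Category.assoc, ιFin_igusaTo]
      congr 1
      rw [← Spec.map_comp, ← CommRingCat.ofHom_comp]
      congr 2
    let c : Spec M ⟶ pullback (igusaTo N ℓ) (sK ℓ K) := pullback.lift _ _ hcond
    have hc : c ≫ pullback.fst _ _ = a ≫ fFin N ℓ ≫ ιFin N ℓ := pullback.lift_fst _ _ _
    have hc' : c ≫ pullback.fst _ _ = a ≫ fInf N ℓ ≫ ιInf N ℓ := by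
      rw [hc, glue_condition]
    refine ⟨c w, ?_, ?_⟩
    · show (pullback.fst (igusaTo N ℓ) (sK ℓ K)) (c w) ∈ Set.range (ιFin N ℓ)
      rw [← Scheme.Hom.comp_apply, hc, Scheme.Hom.comp_apply, Scheme.Hom.comp_apply]
      exact ⟨_, rfl⟩
    · show (pullback.fst (igusaTo N ℓ) (sK ℓ K)) (c w) ∈ Set.range (ιInf N ℓ)
      rw [← Scheme.Hom.comp_apply, hc', Scheme.Hom.comp_apply, Scheme.Hom.comp_apply]
      exact ⟨_, rfl⟩

end Igusa

end Fermat.Agent.Igusa
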