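import Fermat.Agent.Igusa.S28Chart
import Fermat.Agent.Igusa.S28Scheme

/-!
# S28 from the equality of degrees
-/

set_option autoImplicit false

noncomputable section

open AlgebraicGeometry CategoryTheory CategoryTheory.Limits ModularCurve ModularCurve.IgusaScheme

namespace Fermat.Agent.Igusa

theorem dedekindPsi_pos' (N : ℕ) [NeZero N] : 0 < dedekindPsi N := by
  rw [dedekindPsi]
  refine Finset.sum_pos (fun d hd => ?_) ⟨1, ?_⟩
  · rw [Finset.mem_filter, Nat.mem_divisors] at hd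
    exact Nat.div_pos (Nat.le_of_dvd (Nat.pos_of_ne_zero (NeZero.ne N)) hd.1.1)
      (Nat.pos_of_dvd_of_pos hd.1.1 (Nat.pos_of_ne_zero (NeZero.ne N)))
  · rw [Finset.mem_filter, Nat.mem_divisors]
    exact ⟨⟨one_dvd _, NeZero.ne N⟩, squarefree_one⟩

theorem s28_of_degree (N : ℕ) [NeZero N] (ℓ : ℕ) [Fact ℓ.Prime] {d : ℕ} (hpos : 0 < d)
    (hd : IntermediateField.relfinrank (IntermediateField.adjoin ℚ {jqModC ℚ})
      (modularFunctionFieldFullC ℚ N) = d)
    (hd₁ : IntermediateField.relfinrank (IntermediateField.adjoin (ZMod ℓ) {jqModC (ZMod ℓ)})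
      (modularFunctionFieldFullC (ZMod ℓ) N) = d)
    (K : Type) [Field K] [CharP K ℓ] [Algebra ↥(GaloisRep.ratLocalizedAt ℓ) K] :
    AlgebraicGeometry.IsIntegral (pullback (igusaTo N ℓ)
      (Spec.map (CommRingCat.ofHom (algebraMap ↥(GaloisRep.ratLocalizedAt ℓ) K)))) :=
  isIntegral_igusa_pullback N ℓ K (isDomain_chartFin N ℓ hpos hd hd₁ K)
    (isDomain_chartInf N ℓ hpos hd hd₁ K) (nontrivial_chartMid N ℓ hpos hd hd₁ K)

end Fermat.Agent.Igusa
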